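/-
MAZUR (S15) / node [MZ-C'] (helper10): the two cusps of `X₀(p)` and the cuspidal class.  Prefix `mzc_`.

`F̄_p = modularFunctionFieldBar p ⊆ Q̄((q))`, `p` prime.

* `mzc_cuspInf p`  : the place `∞` of `F̄_p / Q̄`: `ord_∞ f = q`-order of `f` (`mzc_cuspInf_ord`);
* `mzc_W p hp`     : the Atkin–Lehner (Fricke) involution `w_p` of `F̄_p / Q̄` (`j ↔ j(q^p)`),
                     transported from `ssm_al_W Q̄ 1 p` (level `1 * p`);
* `mzc_cuspZero p` : the place `0 = ∞ ∘ w_p`: `ord_0 f = q`-order of `w_p f` (`mzc_cuspZero_ord`);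
* `mzc_pole_j`     : the poles of `j` on `X₀(p)` are exactly `∞` (simple) and `0` (order `p`);
* `mzc_cuspDiv p`  : the degree-zero divisor `(0) - (∞)`;
* `mzc_cusp p`     : its class `c ∈ J₀(p)(Q̄) = JZero p`.
-/
import Mathlib
import Fermat.Agent.SS.Model.CuspsFinal
import Fermat.Agent.JT3.Hecke.InputsBar
import Fermat.Agent.JT3.PlaceMap.Modular
import Fermat.Agent.S24.Comb.PsiArith

set_option autoImplicit false
set_option linter.unusedSectionVars false
set_option linter.style.haveILetI false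

noncomputable section

open ModularCurve IntermediateField AlgebraicCurve
open Fermat.Agent.S24 Fermat.Agent.JT3 Fermat.Agent.SS

namespace Fermat.Agent.MZ

/-! ### the cusp `∞` -/

theorem mzc_order_jqK : (br_jqK).order = -1 := by
  rw [rpm_jqK_eq]
  exact ssm_cf_order_j Kbar

/-- **the cusp `∞`** of `X₀(N)`: the `q`-adic place of `F̄_N ⊆ Q̄((q))`. -/
def mzc_cuspInf (N : ℕ) [NeZero N] : Place Kbar (Fbar N) :=
  Classical.choose
    (ssm_cf_exists_xplace (modularFunctionFieldBar N) (br_jqK_mem N) mzc_order_jqK)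

/-- `ord_∞ f` is the `q`-order of the `q`-expansion `f`. -/
theorem mzc_cuspInf_ord (N : ℕ) [NeZero N] (f : Fbar N) :
    (mzc_cuspInf N).ord f = (f : LaurentSeries Kbar).order :=
  Classical.choose_spec
    (ssm_cf_exists_xplace (modularFunctionFieldBar N) (br_jqK_mem N) mzc_order_jqK) f

theorem mzc_cuspInf_ord_j (N : ℕ) [NeZero N] : (mzc_cuspInf N).ord (br_jBar N) = -1 := by
  rw [mzc_cuspInf_ord, coe_br_jBar, mzc_order_jqK]

/-- a place of `F̄_N` whose order function is the `q`-order is `∞`. -/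
theorem mzc_eq_cuspInf (N : ℕ) [NeZero N] (c : Place Kbar (Fbar N))
    (hc : ∀ f : Fbar N, c.ord f = (f : LaurentSeries Kbar).order) : c = mzc_cuspInf N := by
  apply Place.ext
  ext f
  rcases eq_or_ne f 0 with rfl | hf
  · simp
  · rw [hw_mem_iff_ord_nonneg c hf, hw_mem_iff_ord_nonneg (mzc_cuspInf N) hf, hc,
      mzc_cuspInf_ord]

/-! ### the Atkin–Lehner involution `w_p` on `F̄_p` -/

theorem mzc_lgF_congr (L : Type*) [Field L] {M N : ℕ} [NeZero M] [NeZero N] (h : M = N) :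
    lg_F L M = lg_F L N := by
  subst h
  rfl

instance mzc_neZero_one_mul (p : ℕ) [NeZero p] : NeZero (1 * p) := ⟨by
  rw [one_mul]; exact NeZero.ne p⟩

/-- `lg_F Q̄ (1 * p) = F̄_p`. -/
theorem mzc_lgF_eq (p : ℕ) [NeZero p] : lg_F Kbar (1 * p) = modularFunctionFieldBar p :=
  (mzc_lgF_congr Kbar (one_mul p)).trans (lg_F_eq_bar p)

theorem mzc_not_dvd_one {p : ℕ} (hp : p.Prime) : ¬ p ∣ 1 := fun h =>
  hp.one_lt.ne' (Nat.dvd_one.1 h)

/-- **the Atkin–Lehner involution `w_p`** of `F̄_p / Q̄`. -/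
def mzc_W (p : ℕ) [NeZero p] (hp : p.Prime) : Fbar p ≃ₐ[Kbar] Fbar p :=
  ((IntermediateField.equivOfEq (mzc_lgF_eq p)).symm.trans
    (ssm_al_W Kbar 1 p hp (mzc_not_dvd_one hp))).trans (IntermediateField.equivOfEq (mzc_lgF_eq p))

theorem mzc_coe_equivOfEq {K E : Type*} [Field K] [Field E] [Algebra K E]
    {S T : IntermediateField K E} (h : S = T) (x : S) :
    ((IntermediateField.equivOfEq h x : T) : E) = (x : E) := rfl

theorem mzc_coe_equivOfEq_symm {K E : Type*} [Field K] [Field E] [Algebra K E]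
    {S T : IntermediateField K E} (h : S = T) (x : T) :
    (((IntermediateField.equivOfEq h).symm x : S) : E) = (x : E) := rfl

theorem mzc_mem_lgF (p : ℕ) [NeZero p] (x : Fbar p) :
    (x : LaurentSeries Kbar) ∈ lg_F Kbar (1 * p) := by
  rw [mzc_lgF_eq]; exact x.2

theorem mzc_coe_W (p : ℕ) [NeZero p] (hp : p.Prime) (x : Fbar p) :
    ((mzc_W p hp x : Fbar p) : LaurentSeries Kbar) =
      ((ssm_al_W Kbar 1 p hp (mzc_not_dvd_one hp)
        ⟨(x : LaurentSeries Kbar), mzc_mem_lgF p x⟩ : lg_F Kbar (1 * p)) :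
          LaurentSeries Kbar) := by
  have e : (IntermediateField.equivOfEq (mzc_lgF_eq p)).symm x =
      ⟨(x : LaurentSeries Kbar), mzc_mem_lgF p x⟩ := Subtype.ext (mzc_coe_equivOfEq_symm _ x)
  rw [← e]
  exact mzc_coe_equivOfEq (mzc_lgF_eq p) _

theorem mzc_W_W (p : ℕ) [NeZero p] (hp : p.Prime) (x : Fbar p) :
    mzc_W p hp (mzc_W p hp x) = x := by
  apply Subtype.ext
  rw [mzc_coe_W]
  have e : (⟨((mzc_W p hp x : Fbar p) : LaurentSeries Kbar),
      mzc_mem_lgF p (mzc_W p hp x)⟩ : lg_F Kbar (1 * p)) =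
      ssm_al_W Kbar 1 p hp (mzc_not_dvd_one hp)
        ⟨(x : LaurentSeries Kbar), mzc_mem_lgF p x⟩ := Subtype.ext (mzc_coe_W p hp x)
  rw [e, ssm_al_W_W]

theorem mzc_W_symm (p : ℕ) [NeZero p] (hp : p.Prime) : (mzc_W p hp).symm = mzc_W p hp := by
  refine AlgEquiv.ext fun x => ?_
  rw [AlgEquiv.symm_apply_eq, mzc_W_W]

/-- `w_p f = f(q^p)` for `f ∈ Q̄(j)` (level one). -/
theorem mzc_coe_W_of_mem (p : ℕ) [NeZero p] (hp : p.Prime) (x : Fbar p)
    (hx : (x : LaurentSeries Kbar) ∈ lg_F Kbar 1) :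
    ((mzc_W p hp x : Fbar p) : LaurentSeries Kbar) = qExpand Kbar p (x : LaurentSeries Kbar) := by
  rw [mzc_coe_W]
  exact ssm_al_coe_W_of_mem Kbar 1 p hp (mzc_not_dvd_one hp) hx _

/-- `w_p (f(q^p)) = f` for `f ∈ Q̄(j)` (level one). -/
theorem mzc_coe_W_expand_of_mem (p : ℕ) [NeZero p] (hp : p.Prime) (x : Fbar p)
    {y : LaurentSeries Kbar} (hy : y ∈ lg_F Kbar 1)
    (hx : (x : LaurentSeries Kbar) = qExpand Kbar p y) :
    ((mzc_W p hp x : Fbar p) : LaurentSeries Kbar) = y := by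
  rw [mzc_coe_W]
  have h : qExpand Kbar p y ∈ lg_F Kbar (1 * p) := by
    rw [← hx, mzc_lgF_eq]; exact x.2
  have e : (⟨(x : LaurentSeries Kbar), mzc_mem_lgF p x⟩ : lg_F Kbar (1 * p)) =
      ⟨qExpand Kbar p y, h⟩ := Subtype.ext hx
  rw [e]
  exact ssm_al_coe_W_expand_of_mem Kbar 1 p hp (mzc_not_dvd_one hp) hy h

/-- `w_p j = j(q^p)`. -/
theorem mzc_coe_W_j (p : ℕ) [NeZero p] (hp : p.Prime) :
    ((mzc_W p hp (br_jBar p) : Fbar p) : LaurentSeries Kbar) = qExpand Kbar p br_jqK := by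
  rw [mzc_coe_W_of_mem p hp (br_jBar p) (by rw [coe_br_jBar, rpm_jqK_eq]; exact jqModC_mem_full Kbar 1),
    coe_br_jBar]

/-- `w_p` commutes with the coefficientwise Galois action. -/
theorem mzc_coe_W_coeffMap (p : ℕ) [NeZero p] (hp : p.Prime) (σ : Kbar →+* Kbar) (x y : Fbar p)
    (hy : (y : LaurentSeries Kbar) = coeffMap σ (x : LaurentSeries Kbar)) :
    ((mzc_W p hp y : Fbar p) : LaurentSeries Kbar) =
      coeffMap σ ((mzc_W p hp x : Fbar p) : LaurentSeries Kbar) := by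
  rw [mzc_coe_W, mzc_coe_W]
  have h : coeffMap σ (x : LaurentSeries Kbar) ∈ lg_F Kbar (1 * p) := by
    rw [← hy, mzc_lgF_eq]; exact y.2
  have e : (⟨(y : LaurentSeries Kbar), mzc_mem_lgF p y⟩ : lg_F Kbar (1 * p)) =
      ⟨coeffMap σ (x : LaurentSeries Kbar), h⟩ := Subtype.ext hy
  rw [e]
  exact ssm_al_coe_W_coeffMap Kbar 1 p hp (mzc_not_dvd_one hp) σ
    ⟨(x : LaurentSeries Kbar), mzc_mem_lgF p x⟩ h

/-! ### the cusp `0` -/

/-- **the cusp `0`** of `X₀(p)`: the place `∞ ∘ w_p` (for `p` not prime: junk value `∞`). -/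
def mzc_cuspZero (p : ℕ) [NeZero p] : Place Kbar (Fbar p) := by
  classical
  exact if hp : p.Prime then ssm_cf_comap (mzc_W p hp) (mzc_cuspInf p) else mzc_cuspInf p

theorem mzc_cuspZero_eq (p : ℕ) [NeZero p] (hp : p.Prime) :
    mzc_cuspZero p = ssm_cf_comap (mzc_W p hp) (mzc_cuspInf p) := by
  classical
  rw [mzc_cuspZero, dif_pos hp]

/-- `ord_0 f = ord_∞ (w_p f)` is the `q`-order of `w_p f`. -/
theorem mzc_cuspZero_ord (p : ℕ) [NeZero p] (hp : p.Prime) (f : Fbar p) :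
    (mzc_cuspZero p).ord f = ((mzc_W p hp f : Fbar p) : LaurentSeries Kbar).order := by
  rw [mzc_cuspZero_eq p hp, ssm_cf_comap_ord, mzc_cuspInf_ord]

theorem mzc_cuspZero_ord_W (p : ℕ) [NeZero p] (hp : p.Prime) (f : Fbar p) :
    (mzc_cuspZero p).ord (mzc_W p hp f) = (mzc_cuspInf p).ord f := by
  rw [mzc_cuspZero_ord p hp, mzc_W_W, mzc_cuspInf_ord]

theorem mzc_cuspInf_ord_W (p : ℕ) [NeZero p] (hp : p.Prime) (f : Fbar p) :
    (mzc_cuspInf p).ord (mzc_W p hp f) = (mzc_cuspZero p).ord f := by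
  rw [mzc_cuspZero_ord p hp, mzc_cuspInf_ord]

theorem mzc_cuspInf_ord_Wj (p : ℕ) [NeZero p] (hp : p.Prime) :
    (mzc_cuspInf p).ord (mzc_W p hp (br_jBar p)) = -(p : ℤ) := by
  rw [mzc_cuspInf_ord, mzc_coe_W_j, rpm_jqK_eq]
  exact ssm_cf_order_qExpand Kbar p (ssm_cf_order_j Kbar)

/-- `j` has a pole of order `p` at the cusp `0`. -/
theorem mzc_cuspZero_ord_j (p : ℕ) [NeZero p] (hp : p.Prime) :
    (mzc_cuspZero p).ord (br_jBar p) = -(p : ℤ) := by
  rw [← mzc_cuspInf_ord_W p hp, mzc_cuspInf_ord_Wj]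

/-- `w_p j = j(q^p)` has a simple pole at the cusp `0`. -/
theorem mzc_cuspZero_ord_Wj (p : ℕ) [NeZero p] (hp : p.Prime) :
    (mzc_cuspZero p).ord (mzc_W p hp (br_jBar p)) = -1 := by
  rw [mzc_cuspZero_ord_W, mzc_cuspInf_ord_j]

theorem mzc_cuspZero_ne_cuspInf (p : ℕ) [NeZero p] (hp : p.Prime) :
    mzc_cuspZero p ≠ mzc_cuspInf p := by
  intro h
  have h1 := mzc_cuspZero_ord_j p hp
  rw [h, mzc_cuspInf_ord_j] at h1
  have : (p : ℤ) = 1 := by linarith
  have : p = 1 := by exact_mod_cast this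
  exact hp.one_lt.ne' this

/-- `[F̄_p : Q̄(j)] = p + 1`. -/
theorem mzc_finrank_j (p : ℕ) [NeZero p] (hp : p.Prime) :
    Module.finrank Kbar⟮br_jBar p⟯ (Fbar p) = p + 1 := by
  rw [an_finrank_jBar, Comb.card_quotient_Gamma0, Comb.dedekindPsi_prime hp]

/-- **the poles of `j` on `X₀(p)` are the two cusps.** -/
theorem mzc_pole_j (p : ℕ) [NeZero p] (hp : p.Prime) (c : Place Kbar (Fbar p))
    (hc : c.ord (br_jBar p) < 0) : c = mzc_cuspInf p ∨ c = mzc_cuspZero p := by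
  haveI := hib_isSeparable p
  rw [mzc_cuspZero_eq p hp]
  exact ssm_cf_abs_place (br_jBar p) (br_jBar_transcendental p) p hp.two_le
    (mzc_finrank_j p hp).le (mzc_W p hp) (mzc_cuspInf p) (mzc_cuspInf_ord_j p)
    (mzc_cuspInf_ord_Wj p hp) c hc

/-- a place at which `j` has a pole of order `p` is the cusp `0` (`p` prime). -/
theorem mzc_eq_cuspZero (p : ℕ) [NeZero p] (hp : p.Prime) (c : Place Kbar (Fbar p))
    (hc : c.ord (br_jBar p) = -(p : ℤ)) : c = mzc_cuspZero p := by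
  have hp0 : (0 : ℤ) < p := by exact_mod_cast hp.pos
  rcases mzc_pole_j p hp c (by rw [hc]; omega) with h | h
  · exfalso
    rw [h, mzc_cuspInf_ord_j] at hc
    have : (p : ℤ) = 1 := by linarith
    have : p = 1 := by exact_mod_cast this
    exact hp.one_lt.ne' this
  · exact h

/-! ### the cuspidal divisor and its class -/

theorem mzc_deg_eq_one (N : ℕ) [NeZero N] (v : Place Kbar (Fbar N)) : v.deg = 1 :=
  rt_deg_eq_one (hib_isSepGen N) v

/-- the divisor `(0) - (∞)` on `X₀(p)`. -/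
def mzc_cuspDiv0 (p : ℕ) [NeZero p] : Divisor Kbar (Fbar p) :=
  Finsupp.single (mzc_cuspZero p) 1 - Finsupp.single (mzc_cuspInf p) 1

theorem mzc_cuspDiv0_degree (p : ℕ) [NeZero p] : Divisor.degree (mzc_cuspDiv0 p) = 0 := by
  rw [mzc_cuspDiv0, map_sub, Divisor.degree_single, Divisor.degree_single, mzc_deg_eq_one,
    mzc_deg_eq_one, sub_self]

/-- the degree-zero divisor `(0) - (∞)` on `X₀(p)`. -/
def mzc_cuspDiv (p : ℕ) [NeZero p] : Divisor.degZero (K := Kbar) (F := Fbar p) :=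
  ⟨mzc_cuspDiv0 p, Divisor.mem_degZero.mpr (mzc_cuspDiv0_degree p)⟩

theorem mzc_coe_cuspDiv (p : ℕ) [NeZero p] :
    (mzc_cuspDiv p : Divisor Kbar (Fbar p)) =
      Finsupp.single (mzc_cuspZero p) 1 - Finsupp.single (mzc_cuspInf p) 1 := rfl

/-- **the cuspidal class** `c = [(0) - (∞)] ∈ J₀(p)(Q̄)`. -/
def mzc_cusp (p : ℕ) [NeZero p] : JZero p := Pic0.mk (mzc_cuspDiv p)

end Fermat.Agent.MZ
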