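/-
Project MAZUR (S15), node [MZ-C'] (the cuspidal class), cell "integrality" (helper23).

A function `u ∈ F̄_N = Q̄(X₀(N))` whose `q`-expansion (through `br_iota : Q̄ → ℂ`) is the `q`-expansion
of a WEAKLY HOLOMORPHIC modular function `g` of level `Γ₀(N)` (holomorphic on `ℍ`, meromorphic at
all cusps) is INTEGRAL over `Q̄[j]`:

* `mzc_i_relation` : a monic relation of degree `ψ(N)` with coefficients in `Q̄[j]`
  (`exists_monic_relation` over `ℂ[j]` + descent of linear relations, the leading coefficient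
  descends to a nonzero constant);
* `mzc_i_mem_valuationSubring`, `mzc_i_ord_nonneg` : `u` has no pole outside the poles of `j`;
* `mzc_i_ord_eq_zero` : if `u⁻¹` (as `u'` with `u * u' = 1`) also has such a realisation then `u`
  has neither zero nor pole outside the poles of `j`.
Prefix `mzc_i_`.
-/
import Mathlib
import Fermat.Agent.S24.Bridge.Degree
import Fermat.Agent.S24.Hurwitz.Places

set_option autoImplicit false
set_option linter.unusedSectionVars false

open UpperHalfPlane ModularForm Filter Topology Function Complex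
open scoped MatrixGroups IntermediateField

namespace Fermat.Agent.MZ

open AlgebraicCurve Fermat.Agent.S24

attribute [local instance] br_algebra

/-! ### a generic valuation-ring lemma -/

/-- a root of a monic relation with coefficients in a valuation ring lies in the valuation
ring. -/
theorem mzc_i_mem_of_relation {F : Type*} [Field F] (V : ValuationSubring F) (n : ℕ)
    (a : ℕ → F) (ha0 : a 0 = 1) (ha : ∀ r, a r ∈ V) (u : F)
    (h : ∑ r ∈ Finset.range (n + 1), a r * u ^ (n - r) = 0) : u ∈ V := by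
  rcases V.mem_or_inv_mem u with hu | hu
  · exact hu
  rcases eq_or_ne u 0 with rfl | hu0
  · exact V.zero_mem
  rw [Finset.sum_range_succ', ha0, one_mul, Nat.sub_zero] at h
  cases n with
  | zero =>
    rw [Finset.range_zero, Finset.sum_empty, zero_add, pow_zero] at h
    exact absurd h one_ne_zero
  | succ m =>
    have key : u = -∑ r ∈ Finset.range (m + 1), a (r + 1) * u⁻¹ ^ r := by
      have h1 : u ^ (m + 1) = -∑ r ∈ Finset.range (m + 1), a (r + 1) * u ^ (m + 1 - (r + 1)) := by
        linear_combination h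
      have h2 : u = u ^ (m + 1) * u⁻¹ ^ m := by
        rw [pow_succ, mul_assoc, mul_comm u, ← mul_assoc, ← mul_pow, mul_inv_cancel₀ hu0, one_pow,
          one_mul]
      calc u = u ^ (m + 1) * u⁻¹ ^ m := h2
        _ = (-∑ r ∈ Finset.range (m + 1), a (r + 1) * u ^ (m + 1 - (r + 1))) * u⁻¹ ^ m := by
          rw [← h1]
        _ = -∑ r ∈ Finset.range (m + 1), a (r + 1) * u⁻¹ ^ r := by
          rw [neg_mul, Finset.sum_mul]
          congr 1
          refine Finset.sum_congr rfl fun r hr => ?_
          have hr' : r ≤ m := Nat.lt_succ_iff.mp (Finset.mem_range.mp hr)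
          have e : m + 1 - (r + 1) = m - r := by omega
          rw [e, mul_assoc]
          congr 1
          have e2 : u⁻¹ ^ m = u⁻¹ ^ (m - r) * u⁻¹ ^ r := by
            rw [← pow_add, Nat.sub_add_cancel hr']
          rw [e2, ← mul_assoc, ← mul_pow, mul_inv_cancel₀ hu0, one_pow, one_mul]
    rw [key]
    exact V.neg_mem _ (Subring.sum_mem V.toSubring fun r _ =>
      V.mul_mem _ _ (ha _) (pow_mem hu r))

/-! ### the monic relation -/

variable (N : ℕ) [NeZero N]

/-- **integrality over `Q̄[j]`**: a series `u ∈ Q̄((q))` which is (through `br_iota`) the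
`q`-expansion of a weakly holomorphic modular function of level `Γ₀(N)` satisfies a MONIC relation
of degree `ψ(N)` with coefficients in `Q̄[j]`. -/
theorem mzc_i_relation (u : LaurentSeries Kbar) (g : ℍ → ℂ) (hg : IsWeakModFun N g)
    (hq : br_HasLaurentQ g (ModularCurve.coeffMap (br_iota : Kbar →+* ℂ) u)) :
    ∃ c : ℕ → Polynomial Kbar, c 0 = 1 ∧
      ∑ r ∈ Finset.range (br_psi N + 1),
        Polynomial.aeval br_jqK (c r) * u ^ (br_psi N - r) = 0 := by
  classical
  obtain ⟨P, hP0, hP⟩ := exists_monic_relation hg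
  change ∀ z : ℍ, ∑ r ∈ Finset.range (br_psi N + 1), (-1) ^ r * Polynomial.eval (kleinJ z) (P r) *
    g z ^ (br_psi N - r) = 0 at hP
  set n := br_psi N with hn
  -- bound on the degrees
  set D := (Finset.range (n + 1)).sup (fun r => (P r).natDegree) + 1 with hD
  have hdeg : ∀ r ∈ Finset.range (n + 1), (P r).natDegree < D := fun r hr =>
    Nat.lt_succ_of_le (Finset.le_sup (f := fun r => (P r).natDegree) hr)
  -- index set
  let s0 : Finset (ℕ × ℕ) := Finset.range D ×ˢ Finset.range (n + 1)
  let pr : ℕ × ℕ → Prop := fun i => i.2 = 0 → i.1 = 0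
  let s : Finset (ℕ × ℕ) := s0.filter pr
  let lam : ℕ × ℕ → ℂ := fun i => (-1) ^ i.2 * (P i.2).coeff i.1
  let v : ℕ × ℕ → LaurentSeries Kbar := fun i => br_jqK ^ i.1 * u ^ (n - i.2)
  have hlam0 : lam (0, 0) ≠ 0 := by simp [lam, hP0]
  have hlam_of_not : ∀ i, ¬ pr i → lam i = 0 := by
    intro i hi
    simp only [pr, Classical.not_imp] at hi
    obtain ⟨h2, h1⟩ := hi
    simp only [lam, h2, hP0, pow_zero, one_mul, Polynomial.coeff_one, if_neg h1]
  have hrel0 : ∑ i ∈ s0, HahnSeries.C (lam i) *
      ModularCurve.coeffMap (br_iota : Kbar →+* ℂ) (v i) = 0 := by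
    have hL : br_HasLaurentQ (∑ i ∈ s0, (fun _ => lam i) * (kleinJ ^ i.1 * g ^ (n - i.2)))
        (∑ i ∈ s0, HahnSeries.C (lam i) *
          ModularCurve.coeffMap (br_iota : Kbar →+* ℂ) (v i)) := by
      refine br_HasLaurentQ.sum s0 fun i _ => (br_HasLaurentQ.const _).mul ?_
      simp only [v, map_mul, map_pow, br_coeffMap_jqK]
      exact (br_HasLaurentQ_kleinJ.pow _).mul (hq.pow _)
    refine hL.eq_zero_iff.mp ?_
    ext z
    rw [Finset.sum_apply, Pi.zero_apply, Finset.sum_product_right]
    rw [← hP z]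
    refine Finset.sum_congr rfl fun r hr => ?_
    rw [Polynomial.eval_eq_sum_range' (hdeg r hr), Finset.mul_sum, Finset.sum_mul]
    refine Finset.sum_congr rfl fun k _ => ?_
    simp only [Pi.mul_apply, Pi.pow_apply, lam]
    ring
  have hrel : ∑ i ∈ s, HahnSeries.C (lam i) *
      ModularCurve.coeffMap (br_iota : Kbar →+* ℂ) (v i) = 0 := by
    rw [Finset.sum_filter]
    refine Eq.trans (Finset.sum_congr rfl fun i _ => ?_) hrel0
    split_ifs with hi
    · rfl
    · rw [hlam_of_not i hi, map_zero, zero_mul]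
  obtain ⟨μ, hμ0, hμ⟩ := br_exists_rel_of_complex_rel s v lam (0, 0) hlam0 hrel
  have h0D : 0 ∈ Finset.range D := by rw [hD]; exact Finset.mem_range.mpr (Nat.succ_pos _)
  refine ⟨fun r => Polynomial.C (μ (0, 0))⁻¹ * ∑ k ∈ Finset.range D,
    if pr (k, r) then Polynomial.monomial k (μ (k, r)) else 0, ?_, ?_⟩
  · show Polynomial.C (μ (0, 0))⁻¹ * ∑ k ∈ Finset.range D,
      (if pr (k, 0) then Polynomial.monomial k (μ (k, 0)) else 0) = 1
    have e : ∀ k ∈ Finset.range D, (if pr (k, 0) then Polynomial.monomial k (μ (k, 0)) else 0)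
        = if k = 0 then Polynomial.C (μ (0, 0)) else 0 := by
      intro k _
      by_cases hk : k = 0
      · subst hk
        simp [pr]
      · have : ¬ pr (k, 0) := by simp [pr, hk]
        rw [if_neg this, if_neg hk]
    rw [Finset.sum_congr rfl e, Finset.sum_ite_eq' _ 0, if_pos h0D, ← Polynomial.C_mul,
      inv_mul_cancel₀ hμ0, Polynomial.C_1]
  · have hsum : ∑ r ∈ Finset.range (n + 1), Polynomial.aeval br_jqK
          (Polynomial.C (μ (0, 0))⁻¹ * ∑ k ∈ Finset.range D,
            if pr (k, r) then Polynomial.monomial k (μ (k, r)) else 0) * u ^ (n - r)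
        = algebraMap Kbar (LaurentSeries Kbar) (μ (0, 0))⁻¹ *
          ∑ i ∈ s, algebraMap Kbar (LaurentSeries Kbar) (μ i) * v i := by
      rw [Finset.sum_filter, Finset.sum_product_right, Finset.mul_sum]
      refine Finset.sum_congr rfl fun r _ => ?_
      rw [map_mul, Polynomial.aeval_C, map_sum, mul_assoc, Finset.sum_mul]
      congr 1
      refine Finset.sum_congr rfl fun k _ => ?_
      split_ifs with hkr
      · rw [Polynomial.aeval_monomial]
        simp only [v]
        ring
      · rw [map_zero, zero_mul]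
    rw [hsum, hμ, mul_zero]

/-! ### consequences for the places of `F̄_N` -/

variable {N}

/-- the relation inside `F̄_N`. -/
theorem mzc_i_relation_bar (u : Fbar N) (g : ℍ → ℂ) (hg : IsWeakModFun N g)
    (hq : br_HasLaurentQ g
      (ModularCurve.coeffMap (br_iota : Kbar →+* ℂ) ((u : Fbar N) : LaurentSeries Kbar))) :
    ∃ c : ℕ → Polynomial Kbar, c 0 = 1 ∧
      ∑ r ∈ Finset.range (br_psi N + 1),
        Polynomial.aeval (br_jBar N) (c r) * u ^ (br_psi N - r) = 0 := by
  obtain ⟨c, hc0, hc⟩ := mzc_i_relation N (u : LaurentSeries Kbar) g hg hq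
  refine ⟨c, hc0, ?_⟩
  have hinj : Function.Injective (ModularCurve.modularFunctionFieldBar N).val :=
    Subtype.val_injective
  apply hinj
  rw [map_zero, map_sum, ← hc]
  refine Finset.sum_congr rfl fun r _ => ?_
  rw [map_mul, map_pow, ← Polynomial.aeval_algHom_apply]
  rfl

/-- a valuation ring of `F̄_N` containing the constants and `j` contains `u`. -/
theorem mzc_i_mem_valuationSubring (u : Fbar N) (g : ℍ → ℂ) (hg : IsWeakModFun N g)
    (hq : br_HasLaurentQ g
      (ModularCurve.coeffMap (br_iota : Kbar →+* ℂ) ((u : Fbar N) : LaurentSeries Kbar)))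
    (V : ValuationSubring (Fbar N)) (hK : ∀ c : Kbar, algebraMap Kbar (Fbar N) c ∈ V)
    (hj : br_jBar N ∈ V) : u ∈ V := by
  obtain ⟨c, hc0, hc⟩ := mzc_i_relation_bar u g hg hq
  refine mzc_i_mem_of_relation V (br_psi N) (fun r => Polynomial.aeval (br_jBar N) (c r))
    (by simp [hc0]) (fun r => ?_) u hc
  rw [Polynomial.aeval_eq_sum_range]
  refine Subring.sum_mem V.toSubring fun i _ => ?_
  rw [Algebra.smul_def]
  exact V.mul_mem _ _ (hK _) (pow_mem hj i)

/-- **no pole outside the poles of `j`.** -/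
theorem mzc_i_ord_nonneg (u : Fbar N) (g : ℍ → ℂ) (hg : IsWeakModFun N g)
    (hq : br_HasLaurentQ g
      (ModularCurve.coeffMap (br_iota : Kbar →+* ℂ) ((u : Fbar N) : LaurentSeries Kbar)))
    (P : Place Kbar (Fbar N)) (hP : 0 ≤ P.ord (br_jBar N)) : 0 ≤ P.ord u := by
  rcases eq_or_ne u 0 with rfl | hu0
  · rw [Place.ord_zero]
  have hj0 : br_jBar N ≠ 0 := fun h =>
    br_jBar_transcendental N (by rw [h]; exact ⟨Polynomial.X, Polynomial.X_ne_zero, by simp⟩)
  rw [← hw_mem_iff_ord_nonneg P hu0]
  exact mzc_i_mem_valuationSubring u g hg hq P.toValuationSubring (fun c => P.algebraMap_mem' c)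
    ((hw_mem_iff_ord_nonneg P hj0).mpr hP)

/-- **neither zero nor pole outside the poles of `j`**, for a unit of the ring of weakly
holomorphic modular functions. -/
theorem mzc_i_ord_eq_zero (u u' : Fbar N) (huu' : u * u' = 1) (g g' : ℍ → ℂ)
    (hg : IsWeakModFun N g) (hg' : IsWeakModFun N g')
    (hq : br_HasLaurentQ g
      (ModularCurve.coeffMap (br_iota : Kbar →+* ℂ) ((u : Fbar N) : LaurentSeries Kbar)))
    (hq' : br_HasLaurentQ g'
      (ModularCurve.coeffMap (br_iota : Kbar →+* ℂ) ((u' : Fbar N) : LaurentSeries Kbar)))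
    (P : Place Kbar (Fbar N)) (hP : 0 ≤ P.ord (br_jBar N)) : P.ord u = 0 := by
  have h1 := mzc_i_ord_nonneg u g hg hq P hP
  have h2 := mzc_i_ord_nonneg u' g' hg' hq' P hP
  have hu' : u' = u⁻¹ := eq_inv_of_mul_eq_one_right huu'
  rw [hu', Place.ord_inv] at h2
  omega

/-- the same with `ff_jF N` (the S24 spelling of `j`). -/
theorem mzc_i_ord_eq_zero' (u u' : Fbar N) (huu' : u * u' = 1) (g g' : ℍ → ℂ)
    (hg : IsWeakModFun N g) (hg' : IsWeakModFun N g')
    (hq : br_HasLaurentQ g
      (ModularCurve.coeffMap (br_iota : Kbar →+* ℂ) ((u : Fbar N) : LaurentSeries Kbar)))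
    (hq' : br_HasLaurentQ g'
      (ModularCurve.coeffMap (br_iota : Kbar →+* ℂ) ((u' : Fbar N) : LaurentSeries Kbar)))
    (P : Place Kbar (Fbar N)) (hP : 0 ≤ P.ord (ff_jF N)) : P.ord u = 0 :=
  mzc_i_ord_eq_zero u u' huu' g g' hg hg' hq hq' P (by rw [br_jBar_eq_barGenF]; exact hP)

end Fermat.Agent.MZ
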