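/-
Project MAZUR (S15), node [MZ-C'] (the cuspidal class), cell "the modular unit has neither zero nor
pole outside the cusps" (helper23).

`mza_UB p = Δ(q)/Δ(q^p) ∈ Q̄(X₀(p))` and its inverse are both `q`-expansions of weakly holomorphic
modular functions of level `Γ₀(p)` (`Δ(τ)/Δ(pτ)` and `Δ(pτ)/Δ(τ)`), hence both are integral over
`Q̄[j]` (`MZ/C/Integral.lean`):

* `mzc_uo_isWeakModFun_inv` : `Δ(pτ)/Δ(τ)` is a weakly holomorphic modular function of level `Γ₀(p)`;
* `mzc_uo_laurentQ_inv` : its `q`-expansion is the inverse of `mza_UB p`;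
* **`mzc_uo_ord_eq_zero`** : `0 ≤ ord_P j → ord_P UB = 0` for every place `P` of `Q̄(X₀(p))`;
* `mzc_uo_ord_j_neg_of_ord_ne_zero` : the contrapositive: zeros and poles of `UB` are poles of `j`.
Prefix `mzc_uo_`.
-/
import Mathlib
import Fermat.Agent.MZ.C.Integral
import Fermat.Agent.MZ.A.Place.Main
import Fermat.Agent.JT3.Gateway.CComplete

set_option autoImplicit false
set_option linter.unusedSectionVars false

noncomputable section

open UpperHalfPlane ModularForm CongruenceSubgroup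
open scoped MatrixGroups Manifold

namespace Fermat.Agent.MZ

open Fermat.Agent.S24 Fermat.Agent.JT3 Fermat.Agent.S28 AlgebraicCurve
open Fermat.Agent.S23 (alphaN)
open Fermat.Agent.S24.Br

local notation "Qb" => AlgebraicClosure ℚ

variable (p : ℕ) [NeZero p]

theorem mzc_uo_Uan_inv_eq (τ : ℍ) : (mza_Uan p τ)⁻¹ = ((p : ℂ) ^ 12)⁻¹ * tx_u p τ := by
  rw [mza_plu_Uan_eq, mul_inv, inv_inv]

/-- **`Δ(pτ)/Δ(τ)` is a weakly holomorphic modular function of level `Γ₀(p)`.** -/
theorem mzc_uo_isWeakModFun_inv : IsWeakModFun p (fun z => (mza_Uan p z)⁻¹) where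
  mdiff := by
    have h1 : MDiff (tx_ufun p 1) := tx_mdiff_ufun p (dvd_refl p) 1
    have h2 : (fun z => (mza_Uan p z)⁻¹) = (fun _ => ((p : ℂ) ^ 12)⁻¹) * tx_ufun p 1 := by
      funext τ
      rw [mzc_uo_Uan_inv_eq, Pi.mul_apply]
      show _ = _ * tx_u p ((1 : SL(2, ℤ)) • τ)
      rw [one_smul]
    rw [h2]
    exact mdifferentiable_const.mul h1
  inv := fun γ hγ z => by
    show (mza_Uan p (γ • z))⁻¹ = (mza_Uan p z)⁻¹
    rw [mzc_uo_Uan_inv_eq, mzc_uo_Uan_inv_eq, tx_u_smul_of_mem_Gamma0 γ hγ]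
  growth := fun γ => by
    obtain ⟨m, hm⟩ := mza_plu_growth_of_fi_P p (tx_fi_P_ufun p (dvd_refl p) γ)
    refine ⟨m, ?_⟩
    have h2 : (qH ^ m * fun z => (mza_Uan p (γ • z))⁻¹)
        = (fun _ => ((p : ℂ) ^ 12)⁻¹) * (qH ^ m * tx_ufun p γ) := by
      funext z
      simp only [Pi.mul_apply, Pi.pow_apply]
      rw [mzc_uo_Uan_inv_eq]
      show _ = _ * (_ * tx_u p (γ • z))
      ring
    rw [h2]
    exact (Filter.const_boundedAtFilter atImInfty (((p : ℂ) ^ 12)⁻¹)).mul hm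

theorem mzc_uo_Uan_ne_zero (τ : ℍ) : mza_Uan p τ ≠ 0 := by
  unfold mza_Uan
  exact div_ne_zero (discriminant_ne_zero τ) (discriminant_ne_zero _)

/-- the `q`-expansion of `Δ(pτ)/Δ(τ)` is the inverse of the `q`-expansion of `Δ(τ)/Δ(pτ)`. -/
theorem mzc_uo_laurentQ_inv :
    br_HasLaurentQ (fun z => (mza_Uan p z)⁻¹)
      (ModularCurve.coeffMap (br_iota : Qb →+* ℂ)
        (((mza_UB p)⁻¹ : ModularCurve.modularFunctionFieldBar p) : LaurentSeries Qb)) := by
  have h1 := gc_hasLaurentQ_of_weak (mzc_uo_isWeakModFun_inv p)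
  have h2 := (mza_UB_laurentQ p).mul h1
  have hone : mza_Uan p * (fun z => (mza_Uan p z)⁻¹) = fun _ => (1 : ℂ) := by
    funext z
    exact mul_inv_cancel₀ (mzc_uo_Uan_ne_zero p z)
  rw [hone] at h2
  have h3 := h2.unique_right (br_HasLaurentQ.const 1)
  have h4 : gm_lq (fun z => (mza_Uan p z)⁻¹) =
      (ModularCurve.coeffMap (br_iota : Qb →+* ℂ)
        ((mza_UB p : ModularCurve.modularFunctionFieldBar p) : LaurentSeries Qb))⁻¹ := by
    rw [map_one] at h3
    exact eq_inv_of_mul_eq_one_right h3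
  rw [h4] at h1
  have h5 : (((mza_UB p)⁻¹ : ModularCurve.modularFunctionFieldBar p) : LaurentSeries Qb)
      = ((mza_UB p : ModularCurve.modularFunctionFieldBar p) : LaurentSeries Qb)⁻¹ := rfl
  rw [h5, map_inv₀]
  exact h1

theorem mzc_uo_UB_ne_zero : mza_UB p ≠ 0 := by
  intro h
  have h1 := congrArg
    (fun z : ModularCurve.modularFunctionFieldBar p => (z : LaurentSeries Qb).coeff (1 - (p : ℤ))) h
  simp only [mza_UB_coe, ModularCurve.coeffEmb_coeff,
    ModularCurve.coeff_modularUnitSeries_self, map_one] at h1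
  exact one_ne_zero h1

/-- **the modular unit has neither zero nor pole outside the poles of `j`.** -/
theorem mzc_uo_ord_eq_zero (P : Place Qb (ModularCurve.modularFunctionFieldBar p))
    (hP : 0 ≤ P.ord (mza_jB p)) : P.ord (mza_UB p) = 0 :=
  mzc_i_ord_eq_zero' (mza_UB p) (mza_UB p)⁻¹ (mul_inv_cancel₀ (mzc_uo_UB_ne_zero p))
    (mza_Uan p) (fun z => (mza_Uan p z)⁻¹) (mza_pl_weak p) (mzc_uo_isWeakModFun_inv p)
    (mza_UB_laurentQ p) (mzc_uo_laurentQ_inv p) P hP

/-- zeros and poles of the modular unit are poles of `j`. -/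
theorem mzc_uo_ord_j_neg_of_ord_ne_zero (P : Place Qb (ModularCurve.modularFunctionFieldBar p))
    (hP : P.ord (mza_UB p) ≠ 0) : P.ord (mza_jB p) < 0 := by
  by_contra h
  exact hP (mzc_uo_ord_eq_zero p P (not_lt.mp h))

end Fermat.Agent.MZ
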