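/-
MAZUR / node [MZ-C'], ORD FACTS, abstract slice (helper22).  Prefix `mzc_io_`.

`F / K` a function field, `P` a place, `j, u ∈ F`.  If `u` satisfies a relation
`∑_{r ≤ n} c_r(j) u^(n-r) = 0` with `c_r ∈ K[X]` and `c_0` a NONZERO CONSTANT (e.g. `u` integral over
`K[j]`), then `u` has no pole at the places where `j` has none.  If `u⁻¹` satisfies such a relation
too, `ord_P u = 0` there.  (Shape of the relation = `br_relation_A0`, `S24/Bridge/Degree.lean`.)

* `mzc_io_aeval_mem`, `mzc_io_ord_nonneg_of_rel`, `mzc_io_ord_eq_zero_of_rel`;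
* `mzc_io_ord_nonneg_of_isIntegral`, `mzc_io_ord_eq_zero_of_isIntegral` (`IsIntegral K[j] u` form).
-/
import Mathlib
import Fermat.Agent.S24.Hurwitz.Places

set_option autoImplicit false

open AlgebraicCurve

namespace Fermat.Agent.MZ

variable {K : Type*} [Field K] {F : Type*} [Field F] [Algebra K F]

/-- polynomials in `j` with constant coefficients are regular where `j` is -/
theorem mzc_io_aeval_mem (P : Place K F) (j : F) (hj : j ∈ P.toValuationSubring)
    (c : Polynomial K) : Polynomial.aeval j c ∈ P.toValuationSubring := by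
  rw [Polynomial.aeval_eq_sum_range]
  refine sum_mem fun i _ => ?_
  rw [Algebra.smul_def]
  exact mul_mem (P.algebraMap_mem' _) (pow_mem hj i)

/-- **no pole**: a relation `∑_{r ≤ n} c_r(j) u^(n-r) = 0` with `c_0` a nonzero constant -/
theorem mzc_io_ord_nonneg_of_rel (P : Place K F) (j u : F) (hj : 0 ≤ P.ord j) (n : ℕ)
    (c : ℕ → Polynomial K) (a0 : K) (ha0 : a0 ≠ 0) (hc0 : c 0 = Polynomial.C a0)
    (hrel : ∑ r ∈ Finset.range (n + 1), Polynomial.aeval j (c r) * u ^ (n - r) = 0) :
    0 ≤ P.ord u := by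
  classical
  by_contra hneg
  have hu0 : u ≠ 0 := by
    rintro rfl
    exact hneg (by rw [Place.ord_zero])
  have hjV : j ∈ P.toValuationSubring := by
    rcases eq_or_ne j 0 with rfl | hj0
    · exact zero_mem _
    · exact (Fermat.Agent.S24.hw_mem_iff_ord_nonneg P hj0).mpr hj
  have huV : u ∉ P.toValuationSubring := fun h =>
    hneg ((Fermat.Agent.S24.hw_mem_iff_ord_nonneg P hu0).mp h)
  set v := P.toValuationSubring.valuation with hv
  have hvu : 1 < v u := by
    rw [← not_le, ValuationSubring.valuation_le_one_iff]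
    exact huV
  have hA : ∀ r, v (Polynomial.aeval j (c r)) ≤ 1 := fun r =>
    (ValuationSubring.valuation_le_one_iff _ _).mpr (mzc_io_aeval_mem P j hjV (c r))
  -- split off the term `r = 0`
  rw [Finset.sum_range_succ', Nat.sub_zero, hc0, Polynomial.aeval_C] at hrel
  have ha0V : v (algebraMap K F a0) = 1 := by
    have h1 : v (algebraMap K F a0) ≤ 1 :=
      (ValuationSubring.valuation_le_one_iff _ _).mpr (P.algebraMap_mem' a0)
    have h2 : v (algebraMap K F a0⁻¹) ≤ 1 :=
      (ValuationSubring.valuation_le_one_iff _ _).mpr (P.algebraMap_mem' a0⁻¹)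
    have h3 : v (algebraMap K F a0) * v (algebraMap K F a0⁻¹) = 1 := by
      rw [← map_mul, ← map_mul, mul_inv_cancel₀ ha0, map_one, map_one]
    refine le_antisymm h1 ?_
    calc (1 : P.toValuationSubring.ValueGroup)
        = v (algebraMap K F a0) * v (algebraMap K F a0⁻¹) := h3.symm
      _ ≤ v (algebraMap K F a0) * 1 := mul_le_mul_right h2 _
      _ = v (algebraMap K F a0) := mul_one _
  rcases Nat.eq_zero_or_pos n with rfl | hn
  · rw [Finset.range_zero, Finset.sum_empty, zero_add, pow_zero, mul_one] at hrel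
    rw [hrel, map_zero] at ha0V
    exact zero_ne_one ha0V
  · have hsum : v (∑ r ∈ Finset.range n, Polynomial.aeval j (c (r + 1)) * u ^ (n - (r + 1)))
        ≤ v u ^ (n - 1) := by
      refine Valuation.map_sum_le _ fun r _ => ?_
      rw [map_mul, map_pow]
      calc v (Polynomial.aeval j (c (r + 1))) * v u ^ (n - (r + 1))
          ≤ 1 * v u ^ (n - 1) :=
            mul_le_mul' (hA _) (pow_le_pow_right₀ hvu.le (by omega))
        _ = v u ^ (n - 1) := one_mul _
    have heq : v (algebraMap K F a0 * u ^ n)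
        = v (∑ r ∈ Finset.range n, Polynomial.aeval j (c (r + 1)) * u ^ (n - (r + 1))) := by
      have h1 : algebraMap K F a0 * u ^ n
          = -(∑ r ∈ Finset.range n, Polynomial.aeval j (c (r + 1)) * u ^ (n - (r + 1))) := by
        rw [eq_neg_iff_add_eq_zero, add_comm]
        exact hrel
      rw [h1, Valuation.map_neg]
    rw [map_mul, ha0V, one_mul, map_pow] at heq
    rw [← heq] at hsum
    have := (pow_le_pow_iff_right₀ hvu).mp hsum
    omega

/-- **no zero and no pole**: relations for `u` and for `u⁻¹` -/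
theorem mzc_io_ord_eq_zero_of_rel (P : Place K F) (j u : F) (hj : 0 ≤ P.ord j) (n n' : ℕ)
    (c c' : ℕ → Polynomial K) (a0 a0' : K) (ha0 : a0 ≠ 0) (ha0' : a0' ≠ 0)
    (hc0 : c 0 = Polynomial.C a0) (hc0' : c' 0 = Polynomial.C a0')
    (hrel : ∑ r ∈ Finset.range (n + 1), Polynomial.aeval j (c r) * u ^ (n - r) = 0)
    (hrel' : ∑ r ∈ Finset.range (n' + 1), Polynomial.aeval j (c' r) * u⁻¹ ^ (n' - r) = 0) :
    P.ord u = 0 := by
  have h1 := mzc_io_ord_nonneg_of_rel P j u hj n c a0 ha0 hc0 hrel
  have h2 := mzc_io_ord_nonneg_of_rel P j u⁻¹ hj n' c' a0' ha0' hc0' hrel'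
  rw [Place.ord_inv] at h2
  omega

/-- `IsIntegral K[j] u` form -/
theorem mzc_io_ord_nonneg_of_isIntegral (P : Place K F) (j u : F) (hj : 0 ≤ P.ord j)
    (hu : IsIntegral (Algebra.adjoin K {j}) u) : 0 ≤ P.ord u := by
  have hjV : j ∈ P.toValuationSubring := by
    rcases eq_or_ne j 0 with rfl | hj0
    · exact zero_mem _
    · exact (Fermat.Agent.S24.hw_mem_iff_ord_nonneg P hj0).mpr hj
  have hle : ∀ x ∈ Algebra.adjoin K {j}, x ∈ P.toValuationSubring := by
    intro x hx
    induction hx using Algebra.adjoin_induction with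
    | mem y hy =>
      rw [Set.mem_singleton_iff] at hy
      rw [hy]; exact hjV
    | algebraMap r => exact P.algebraMap_mem' r
    | add x y _ _ hx hy => exact add_mem hx hy
    | mul x y _ _ hx hy => exact mul_mem hx hy
  let f : Algebra.adjoin K {j} →+* P.toValuationSubring :=
    { toFun := fun x => ⟨(x : F), hle x x.2⟩
      map_one' := rfl
      map_mul' := fun _ _ => rfl
      map_zero' := rfl
      map_add' := fun _ _ => rfl }
  obtain ⟨p, hpm, hp0⟩ := hu
  have hint : IsIntegral P.toValuationSubring u := by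
    refine ⟨p.map f, hpm.map f, ?_⟩
    rw [Polynomial.eval₂_map]
    exact hp0
  obtain ⟨y, hy⟩ := IsIntegrallyClosed.isIntegral_iff.mp hint
  have huV : u ∈ P.toValuationSubring := hy ▸ y.2
  rcases eq_or_ne u 0 with rfl | hu0
  · rw [Place.ord_zero]
  · exact (Fermat.Agent.S24.hw_mem_iff_ord_nonneg P hu0).mp huV

theorem mzc_io_ord_eq_zero_of_isIntegral (P : Place K F) (j u : F) (hj : 0 ≤ P.ord j)
    (hu : IsIntegral (Algebra.adjoin K {j}) u) (hu' : IsIntegral (Algebra.adjoin K {j}) u⁻¹) :
    P.ord u = 0 := by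
  have h1 := mzc_io_ord_nonneg_of_isIntegral P j u hj hu
  have h2 := mzc_io_ord_nonneg_of_isIntegral P j u⁻¹ hj hu'
  rw [Place.ord_inv] at h2
  omega

end Fermat.Agent.MZ
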