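/-
Project MAZUR (S15), node [MZ-C'] / cell [C-NZ] (1) (helper4): CANONICAL DIVISORS EXIST.

`mzc_cn_hasCanonicalDivisor`: for a function field `F / K` (`K` algebraically closed of
characteristic zero, `x ∈ F` transcendental with `[F : K(x)] < ∞`) every nonzero differential
`ω = g dx` has a divisor: `ord_v ω = ord_v g + ord_v (dx)`, `div (dx)` is `rrk_exists_canon`
(finitely many ramified places, MW/RRK/Canon.lean) and `g` has finitely many zeros and poles.
`mzc_cn_inst N`: the instance `HasCanonicalDivisor Q̄ (F̄_N)` for the function field of `X₀(N)`, so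
that `Fermat.Agent.S24.result N` (genus formula) and `hw_genus_eq` (Riemann–Hurwitz) can be used
WITHOUT an instance hypothesis.
Prefix `mzc_cn_`.
-/
import Mathlib
import Fermat.Agent.MW.RRK.Diff
import Fermat.Agent.JT3.Hecke.InputsBar

set_option autoImplicit false

noncomputable section

namespace Fermat.Agent.MZ

open AlgebraicCurve IntermediateField KaehlerDifferential
open Fermat.Agent.S24 Fermat.Agent.JT3 Fermat.Agent.MW

universe u v

/-- **canonical divisors exist** in a function field of characteristic zero over an algebraically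
closed field. -/
theorem mzc_cn_hasCanonicalDivisor {K : Type u} {F : Type v} [Field K] [Field F] [Algebra K F]
    [IsAlgClosed K] [CharZero K] {x : F} (hx : Transcendental K x) [FiniteDimensional K⟮x⟯ F] :
    HasCanonicalDivisor (K := K) (F := F) := by
  classical
  refine ⟨fun ω hω => ?_⟩
  have hsep : rt_IsSepGen K x := rt_isSepGen_of_charZero hx
  set g : F := hw_kaehlerEquiv hx ω with hg
  have hωg : ω = g • D K F x := hw_eq_smul_D hx ω
  have hg0 : g ≠ 0 := by
    intro h0
    apply hω
    rw [hωg, h0, zero_smul]
  have hfin : (Function.support fun v : Place K F => v.ord g + rrk_dOrd x v).Finite := by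
    refine ((rt_finite_support hsep g).union (rrk_finite_ram hx)).subset ?_
    intro v hv
    rw [Function.mem_support] at hv
    by_cases h1 : v.ord g = 0
    · right
      show rrk_dOrd x v ≠ 0
      intro h2
      apply hv
      rw [h1, h2, add_zero]
    · left
      exact h1
  refine ⟨Finsupp.ofSupportFinite (fun v => v.ord g + rrk_dOrd x v) hfin, fun v => ?_⟩
  show v.ord g + rrk_dOrd x v = v.ordDifferential ω
  conv_rhs => rw [hωg]
  rw [hw_ordDifferential_smul hx v hg0 (hw_D_ne_zero hx), rrk_dOrd_eq_ordDifferential hx v]

/-- **`HasCanonicalDivisor Q̄ (F̄_N)`** for the function field of `X₀(N)` over `Q̄`. -/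
instance mzc_cn_inst (N : ℕ) [NeZero N] :
    HasCanonicalDivisor (K := AlgebraicClosure ℚ) (F := ↥(ModularCurve.modularFunctionFieldBar N)) :=
  haveI := br_finiteDimensional N
  mzc_cn_hasCanonicalDivisor (br_jBar_transcendental N)

end Fermat.Agent.MZ
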