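/-
Project MAZUR (S15), node [MZ-C'] / cell [C-NZ] (helper4): A FUNCTION FIELD OF DEGREE ONE OVER
`K(f)` HAS GENUS ZERO.

`mzc_gz_main`: `K` algebraically closed of characteristic zero, `f ∈ F` transcendental with
`[F : K(f)] = 1`; then `genus K F = 0` (Riemann–Hurwitz `hw_genus_eq` with no branch value: the
fibres of `f` have one point, so nothing ramifies; `2g - 2 = -1 - #poles`).
`mzc_gz_modular`: for `F = F̄_N` (instance `mzc_cn_inst`): `[F̄_N : Q̄(f)] = 1` is impossible as soon
as `genusFormula N ≠ 0` (S24).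
Prefix `mzc_gz_`.
-/
import Mathlib
import Fermat.Agent.MZ.C.Canon
import Fermat.Agent.S24.Hurwitz.Degree
import Fermat.Agent.S24

set_option autoImplicit false

noncomputable section

namespace Fermat.Agent.MZ

open AlgebraicCurve IntermediateField KaehlerDifferential
open Fermat.Agent.S24 Fermat.Agent.JT3 Fermat.Agent.MW

universe u v

/-- a function of degree one is unramified over every finite value. -/
theorem mzc_gz_unramified {K : Type u} {F : Type v} [Field K] [Field F] [Algebra K F]
    [IsAlgClosed K] [CharZero K] {f : F} (hf : Transcendental K f) [FiniteDimensional K⟮f⟯ F]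
    (hdeg : Module.finrank K⟮f⟯ F = 1) (c : K) (v : Place K F) :
    ¬ 1 < v.ord (f - algebraMap K F c) := by
  classical
  intro hv
  have hsum := hw_sum_fiber_toFinset hf c
  rw [hdeg] at hsum
  have hmem : v ∈ (hw_finite_fiber hf c).toFinset := by
    rw [Set.Finite.mem_toFinset]
    exact lt_trans one_pos hv
  have hle : v.ord (f - algebraMap K F c)
      ≤ ∑ w ∈ (hw_finite_fiber hf c).toFinset, w.ord (f - algebraMap K F c) := by
    refine Finset.single_le_sum (f := fun w : Place K F => w.ord (f - algebraMap K F c))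
      (fun w hw => ?_) hmem
    rw [Set.Finite.mem_toFinset] at hw
    exact le_of_lt hw
  rw [hsum] at hle
  have : (1 : ℤ) < ((1 : ℕ) : ℤ) := lt_of_lt_of_le hv hle
  simp at this

/-- **degree one ⟹ genus zero.** -/
theorem mzc_gz_main {K : Type u} {F : Type v} [Field K] [Field F] [Algebra K F]
    [IsAlgClosed K] [CharZero K] [HasCanonicalDivisor (K := K) (F := F)]
    {f : F} (hf : Transcendental K f) [FiniteDimensional K⟮f⟯ F]
    (hdeg : Module.finrank K⟮f⟯ F = 1) : genus K F = 0 := by
  classical
  have h := hw_genus_eq hf (∅ : Finset K)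
    (fun c v hv => absurd hv (mzc_gz_unramified hf hdeg c v))
  rw [h, Finset.sum_empty, hdeg]
  set n : ℕ := Set.ncard {v : Place K F | v.ord f < 0} with hn
  have h1 : ((0 : ℤ) - ((1 : ℕ) : ℤ) - (n : ℤ) + 2).toNat ≤ 1 := by
    have : (0 : ℤ) - ((1 : ℕ) : ℤ) - (n : ℤ) + 2 ≤ 1 := by
      have hn0 : (0 : ℤ) ≤ (n : ℤ) := Int.natCast_nonneg n
      push_cast
      linarith
    exact Int.toNat_le.mpr (by simpa using this)
  rcases Nat.le_one_iff_eq_zero_or_eq_one.mp h1 with h2 | h2
  · rw [h2]
  · rw [h2]

/-- for the modular function field `F̄_N`: no function of degree one when `genusFormula N ≠ 0`. -/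
theorem mzc_gz_modular (N : ℕ) [NeZero N] (hg : ModularCurve.genusFormula N ≠ 0)
    {f : ↥(ModularCurve.modularFunctionFieldBar N)} (hf : Transcendental (AlgebraicClosure ℚ) f)
    [FiniteDimensional (AlgebraicClosure ℚ)⟮f⟯ ↥(ModularCurve.modularFunctionFieldBar N)] :
    Module.finrank (AlgebraicClosure ℚ)⟮f⟯ ↥(ModularCurve.modularFunctionFieldBar N) ≠ 1 := by
  intro hdeg
  apply hg
  have h1 := Fermat.Agent.S24.result N
  rw [mzc_gz_main hf hdeg] at h1
  rw [← h1]
  simp

end Fermat.Agent.MZ
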