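/-
Project MAZUR (S15), node [MZ-C'] / cell [C-NZ] (helper4): IF `(v) - (w)` IS PRINCIPAL THEN THE
FUNCTION FIELD HAS A FUNCTION OF DEGREE ONE.

`mzc_d1_main`: `F / K` a function field over an algebraically closed field with a separating
generator, `v ≠ w` places, `deg w = 1`, `(v) - (w) = div f` ⟹ `f` is transcendental and
`[F : K(f)] = 1` (`= deg (f)_∞ = deg (w)`, `rt_degree_poleDiv`).
`mzc_d1_cls_ne_zero`: in `J₀(p) = Pic⁰ (F̄_p)`: `cl((v) - (w)) ≠ 0` for `v ≠ w` as soon as
`genusFormula p ≠ 0` (`mzc_gz_modular`).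
Prefix `mzc_d1_`.
-/
import Mathlib
import Fermat.Agent.MZ.C.GenusZero
import Fermat.Agent.MZ.Top.Seams
import Fermat.Agent.JT3.Riemann.Principal

set_option autoImplicit false

noncomputable section

namespace Fermat.Agent.MZ

open AlgebraicCurve IntermediateField ModularCurve
open Fermat.Agent.S24 Fermat.Agent.JT3

universe u v

/-- **a principal divisor `(v) - (w)` gives a function of degree one.** -/
theorem mzc_d1_main {K : Type u} {F : Type v} [Field K] [Field F] [Algebra K F] [IsAlgClosed K]
    {x : F} (hx : rt_IsSepGen K x) (v w : Place K F) (hvw : v ≠ w) (hdeg : w.deg = 1)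
    (hD : (Finsupp.single v 1 - Finsupp.single w 1 : Divisor K F) ∈
      Divisor.principal (K := K) (F := F)) :
    ∃ f : F, Transcendental K f ∧ ∃ _ : FiniteDimensional K⟮f⟯ F, Module.finrank K⟮f⟯ F = 1 := by
  classical
  obtain ⟨f, hf0, hf⟩ := hD
  have hfv : v.ord f = 1 := by
    rw [← hf v, Finsupp.sub_apply, Finsupp.single_eq_same, Finsupp.single_eq_of_ne hvw, sub_zero]
  have hfw : w.ord f = -1 := by
    rw [← hf w, Finsupp.sub_apply, Finsupp.single_eq_same, Finsupp.single_eq_of_ne hvw.symm,
      zero_sub]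
  have hfu : ∀ u : Place K F, u ≠ v → u ≠ w → u.ord f = 0 := by
    intro u huv huw
    rw [← hf u, Finsupp.sub_apply, Finsupp.single_eq_of_ne huv, Finsupp.single_eq_of_ne huw,
      sub_zero]
  have htr : Transcendental K f :=
    rt_transcendental_of_ord_ne_zero (v := v) (by rw [hfv]; exact one_ne_zero)
  have hfinx : FiniteDimensional K⟮x⟯ F := hx.2.1
  have hfin : FiniteDimensional K⟮f⟯ F := hw_finiteDimensional_adjoin x htr
  refine ⟨f, htr, hfin, ?_⟩
  have hpole : rt_poleDiv hx f = Finsupp.single w 1 := by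
    ext u
    rw [rt_poleDiv_apply]
    by_cases huw : u = w
    · subst huw
      rw [hfw, Finsupp.single_eq_same]
      norm_num
    · rw [Finsupp.single_eq_of_ne huw]
      by_cases huv : u = v
      · subst huv
        rw [hfv]
        norm_num
      · rw [hfu u huv huw]
        norm_num
  have h1 := rt_degree_poleDiv hx htr
  rw [hpole, Divisor.degree_single, hdeg] at h1
  have h2 : ((1 : ℕ) : ℤ) = (Module.finrank K⟮f⟯ F : ℤ) := by
    rw [← h1]
    norm_num
  exact (Nat.cast_injective h2).symm

/-- **[C-NZ]** in `J₀(p)`: the class of `(v) - (w)`, `v ≠ w`, is nonzero when the genus formula is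
nonzero. -/
theorem mzc_d1_cls_ne_zero (p : ℕ) [NeZero p] (hg : genusFormula p ≠ 0)
    (v w : Place (AlgebraicClosure ℚ) (modularFunctionFieldBar p)) (hvw : v ≠ w) :
    mzt_cls p v w ≠ 0 := by
  intro h0
  have hmem : (mzt_diff p v w : Divisor (AlgebraicClosure ℚ) (modularFunctionFieldBar p)) ∈
      Divisor.principal (K := AlgebraicClosure ℚ) (F := modularFunctionFieldBar p) := by
    have h1 : mzt_diff p v w ∈
        (Divisor.principal (K := AlgebraicClosure ℚ) (F := modularFunctionFieldBar p)).addSubgroupOf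
          (Divisor.degZero (K := AlgebraicClosure ℚ) (F := modularFunctionFieldBar p)) :=
      (QuotientAddGroup.eq_zero_iff _).mp h0
    exact AddSubgroup.mem_addSubgroupOf.mp h1
  obtain ⟨f, htr, hfin, hdeg⟩ := mzc_d1_main (hib_isSepGen p) v w hvw
    ((est_riemann_fbar p).deg_one w) hmem
  exact mzc_gz_modular p hg htr hdeg

end Fermat.Agent.MZ
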