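/-
MAZUR / node [MZ-C'], clause (ii), ABSTRACT FORM (helper22; the ES trick of helper24).
Prefix `mzc_h_`.

* `mzc_h_eis`       : a `G_ℚ`-fixed class `c ∈ J₀(N)` killed by `m`, and a prime `ℓ ∤ N m`:
                      `T_ℓ c = (1 + ℓ) c`.
  [Eichler–Shimura relation after reduction at `A ∣ ℓ` (`ese_relation`) at a Frobenius element,
  which fixes `c`; then injectivity of the reduction on prime-to-`ℓ` torsion (S18).]
* `mzc_h_cls_fixed` : if the places `v, w` are `G_ℚ`-fixed, so is the class of `(v) - (w)`;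
* `mzc_h_C_ii`      : clause (ii) of `mzt_C_stmt` from its clauses (i) and (iii).
-/
import Mathlib
import Fermat.Agent.JT3.ES.Torsion
import Fermat.Agent.JT3.PlaceMap.WireNodeE
import Fermat.Agent.S18
import Fermat.Agent.S13.Global.UnramifiedOne
import Fermat.Agent.MZ.Top.Seams

set_option autoImplicit false
set_option synthInstance.maxHeartbeats 400000
set_option maxHeartbeats 1000000
set_option linter.style.haveILetI false

noncomputable section

open ModularCurve AlgebraicCurve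

namespace Fermat.Agent.MZ

local notation "GQ" => (AlgebraicClosure ℚ ≃ₐ[ℚ] AlgebraicClosure ℚ)

section Aux

variable {J M : Type*} [AddCommGroup J] [AddCommGroup M]

theorem mzc_h_aux1 (red : J →+ M) (x t : J) (n : ℕ) (h : red x - red t + n • red x = 0) :
    red (t - ((1 : ℤ) + (n : ℤ)) • x) = 0 := by
  rw [map_sub, map_zsmul, add_smul, one_smul, natCast_zsmul]
  have h3 : red t - (red x + n • red x) = -(red x - red t + n • red x) := by abel
  rw [h3, h, neg_zero]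

theorem mzc_h_aux2 (T : Module.End ℤ J) (x : J) (m : ℕ) (z : ℤ) (hm : m • x = 0) :
    m • (T x - z • x) = 0 := by
  rw [smul_sub, ← map_nsmul, hm, map_zero, smul_comm, hm, smul_zero, sub_zero]

end Aux

/-- **the ES trick**: a Galois-fixed class killed by `m` is Eisenstein at every prime `ℓ ∤ N m`. -/
theorem mzc_h_eis (N : ℕ) [NeZero N] (ℓ : Nat.Primes) (hℓN : ¬ (ℓ : ℕ) ∣ N)
    (m : ℕ) (hm : ¬ (ℓ : ℕ) ∣ m) (c : JZero N)
    (hfix : ∀ σ : GQ, σ • c = c) (hmc : m • c = 0) :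
    heckeOperatorBar N ℓ c = ((1 : ℤ) + ((ℓ : ℕ) : ℤ)) • c := by
  have hℓ : (ℓ : ℕ).Prime := ℓ.2
  haveI : NeZero (ℓ : ℕ) := ⟨hℓ.ne_zero⟩
  haveI : Fact (ℓ : ℕ).Prime := ⟨hℓ⟩
  obtain ⟨A, hA⟩ := Fermat.Agent.S13.g1_exists_liesOver (ℓ : ℕ) hℓ
  haveI : CharP (IsLocalRing.ResidueField A) (ℓ : ℕ) := Fermat.Agent.JT3.ese_charP hℓ hA
  have h := Fermat.Agent.JT3.rpw_nodeE N (ℓ : ℕ) hℓ hℓN A hA
  have hR := Fermat.Agent.JT3.est_riemann_fbar N
  obtain ⟨σ₀, hσ₀⟩ := Fermat.Agent.JT3.fex_exists_isFrobeniusAt hℓ A hA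
  have hrel := Fermat.Agent.JT3.ese_relation h hR
    (Fermat.Agent.JT3.est_NL N (ℓ : ℕ) hℓ hℓN A hA)
    (Fermat.Agent.JT3.hib_heckeInputsAlong N (ℓ : ℕ)) σ₀ hσ₀ c
  rw [hfix σ₀, hfix σ₀] at hrel
  have hz : reductionModL A N (heckeOperatorBar N ℓ c - ((1 : ℤ) + ((ℓ : ℕ) : ℤ)) • c) = 0 :=
    mzc_h_aux1 (reductionModL A N) c (heckeOperatorBar N ℓ c) (ℓ : ℕ) hrel
  have hkill : m • (heckeOperatorBar N ℓ c - ((1 : ℤ) + ((ℓ : ℕ) : ℤ)) • c) = 0 :=
    mzc_h_aux2 (heckeOperatorBar N ℓ) c m _ hmc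
  have h0 := @Fermat.Agent.S18.result N _ (ℓ : ℕ) ⟨hℓ⟩ hℓN A hA h m hm _ hkill hz
  exact sub_eq_zero.mp h0

/-- the class of `(v) - (w)` is Galois-fixed when the two places are -/
theorem mzc_h_cls_fixed (p : ℕ) [NeZero p]
    (v w : Place (AlgebraicClosure ℚ) (modularFunctionFieldBar p))
    (hv : ∀ σ : GQ, arithmeticGalois (modularFunctionFieldFull p) σ • v = v)
    (hw : ∀ σ : GQ, arithmeticGalois (modularFunctionFieldFull p) σ • w = w) (σ : GQ) :
    σ • mzt_cls p v w = mzt_cls p v w := by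
  rw [galois_smul_pic0_def, mzt_cls, SemilinearAut.pic0_smul_mk]
  congr 1
  apply Subtype.ext
  rw [SemilinearAut.coe_degZeroSMulHom]
  show arithmeticGalois (modularFunctionFieldFull p) σ •
    (Finsupp.single v (1 : ℤ) - Finsupp.single w 1) = Finsupp.single v 1 - Finsupp.single w 1
  rw [smul_sub, SemilinearAut.smul_single, SemilinearAut.smul_single, hv σ, hw σ]

/-- **clause (ii) of `mzt_C_stmt` from clauses (i) and (iii).** -/
theorem mzc_h_C_ii (p : ℕ) [NeZero p] (hp : p.Prime) (C : mzt_Cusps p)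
    (h0 : ∀ σ : GQ, arithmeticGalois (modularFunctionFieldFull p) σ • C.zero = C.zero)
    (hinf : ∀ σ : GQ, arithmeticGalois (modularFunctionFieldFull p) σ • C.inf = C.inf)
    (hkill : (p - 1) • mzt_c p C = 0) :
    ∀ ℓ : Nat.Primes, (ℓ : ℕ) ≠ p → ¬ (ℓ : ℕ) ∣ p - 1 →
      heckeOperatorBar p ℓ (mzt_c p C) = ((1 : ℤ) + ((ℓ : ℕ) : ℤ)) • mzt_c p C := by
  intro ℓ hℓp hℓ1
  refine mzc_h_eis p ℓ (fun hd => hℓp ((Nat.prime_dvd_prime_iff_eq ℓ.2 hp).mp hd)) (p - 1) hℓ1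
    (mzt_c p C) (fun σ => mzc_h_cls_fixed p C.zero C.inf h0 hinf σ) hkill

end Fermat.Agent.MZ
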