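/-
MAZUR (S15) / [MZ-C'] clause (ii), GENERIC form.  Prefix `mzc_hf_`.

`mzc_hf_main` : a `G_ℚ`-fixed class `x ∈ J₀(N)` killed by `m` is an eigenvector of `T_ℓ` with
eigenvalue `1 + ℓ`, for every prime `ℓ ∤ N m`.

Proof (the Eichler–Shimura trick): choose a place `A ∣ ℓ` and a Frobenius element `σ₀` at `A`.  The
congruence relation `red (T_ℓ x) = φ • red x + ℓ • φ⁻¹ • red x` (`ese_red_hecke`) and the Galois
equivariance `red (σ₀ • x) = φ • red x` (`egr_red_frob`), with `σ₀ • x = x`, give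
`red (T_ℓ x - (1 + ℓ) x) = 0`; the class `T_ℓ x - (1 + ℓ) x` is killed by `m`, which is prime to
`ℓ`, so it vanishes by the injectivity of the reduction on prime-to-`ℓ` torsion (S18).

`mzc_hf_cls_smul`, `mzc_hf_c_fixed` : the class of `(v) - (w)` is fixed when `v`, `w` are.
`mzc_hf_clause` : clause (ii) of `mzt_C_stmt` from clauses (i) and (iii).
-/
import Mathlib
import Fermat.Agent.MZ.Top.Asm
import Fermat.Agent.JT3.ES.Torsion

set_option autoImplicit false
set_option synthInstance.maxHeartbeats 400000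
set_option maxHeartbeats 1000000
set_option linter.style.haveILetI false

noncomputable section

open ModularCurve AlgebraicCurve

namespace Fermat.Agent.MZ

open Fermat.Agent.JT3

local notation "GQ" => (AlgebraicClosure ℚ ≃ₐ[ℚ] AlgebraicClosure ℚ)
local notation "Qbar" => AlgebraicClosure ℚ

/-- **Galois-fixed torsion classes are Eisenstein.** -/
theorem mzc_hf_main (N : ℕ) [NeZero N] (ℓ : Nat.Primes) (hℓN : ¬ (ℓ : ℕ) ∣ N)
    (m : ℕ) (hm : ¬ (ℓ : ℕ) ∣ m) (x : JZero N) (hfix : ∀ σ : GQ, σ • x = x)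
    (hmx : m • x = 0) :
    heckeOperatorBar N ℓ x = ((1 : ℤ) + ((ℓ : ℕ) : ℤ)) • x := by
  obtain ⟨l, hl⟩ := ℓ
  change ¬ l ∣ N at hℓN
  change ¬ l ∣ m at hm
  haveI : NeZero l := ⟨hl.ne_zero⟩
  haveI : Fact l.Prime := ⟨hl⟩
  obtain ⟨A, hA⟩ := mzt_exists_place l hl
  haveI : CharP (IsLocalRing.ResidueField A) l := ese_charP hl hA
  have h : ReductionInputsModL A N := rpw_nodeE N l hl hℓN A hA
  have hR := est_riemann_fbar N
  obtain ⟨σ₀, hσ₀⟩ := fex_exists_isFrobeniusAt hl A hA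
  obtain ⟨hα, hβ, hP, hfin, hFI, hNF⟩ := hib_heckeInputsAlong N l
  haveI := hP
  have e : heckeOperatorBar N ⟨l, hl⟩ x = heckePic0Bar hα hβ hFI hfin hNF x := by
    show heckeOperatorAlong (AlgebraicClosure ℚ) N l x = _
    rw [heckeOperatorAlong_eq hα hβ hFI hfin hNF]
  set φ := egr_phi (⟨σ₀, hσ₀.mem_decompositionSubgroup⟩ : A.decompositionSubgroup ℚ) with hφdef
  have hφ : ∀ y, φ y = y ^ l := egr_phi_frob σ₀ hσ₀
  have hfr : ca_aut (IsLocalRing.ResidueField A) N φ • reductionModL A N x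
      = reductionModL A N x := by
    have := egr_red_frob h hR σ₀ hσ₀ x
    rw [hfix σ₀] at this
    exact this.symm
  have hfr' : (ca_aut (IsLocalRing.ResidueField A) N φ)⁻¹ • reductionModL A N x
      = reductionModL A N x := by
    rw [inv_smul_eq_iff, hfr]
  have hT : reductionModL A N (heckeOperatorBar N ⟨l, hl⟩ x)
      = reductionModL A N x + l • reductionModL A N x := by
    rw [e, ese_red_hecke h hR (est_NL N l hl hℓN A hA) φ hφ hα hβ hFI hfin hNF x,
      ese_theta_apply, hfr, hfr']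
  have key : heckeOperatorBar N ⟨l, hl⟩ x - ((1 : ℤ) + ((l : ℕ) : ℤ)) • x = 0 := by
    refine @Fermat.Agent.S18.result N _ l ⟨hl⟩ hℓN A hA h m hm _ ?_ ?_
    · rw [nsmul_sub, ← map_nsmul, hmx, map_zero, smul_comm, hmx, smul_zero, sub_zero]
    · rw [map_sub, hT, map_zsmul, add_zsmul, one_zsmul, natCast_zsmul, sub_self]
  exact sub_eq_zero.mp key

section Classes

variable (p : ℕ) [NeZero p]

/-- the Galois action on the class of `(v) - (w)` -/
theorem mzc_hf_cls_smul (σ : GQ) (v w : Place Qbar (modularFunctionFieldBar p)) :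
    σ • mzt_cls p v w
      = mzt_cls p (arithmeticGalois (modularFunctionFieldFull p) σ • v)
          (arithmeticGalois (modularFunctionFieldFull p) σ • w) := by
  unfold mzt_cls
  rw [galois_smul_pic0_def, SemilinearAut.pic0_smul_mk]
  congr 1
  apply Subtype.ext
  rw [SemilinearAut.coe_degZeroSMulHom]
  show arithmeticGalois (modularFunctionFieldFull p) σ •
      (Finsupp.single v (1 : ℤ) - Finsupp.single w 1) = _
  rw [smul_sub, SemilinearAut.smul_single, SemilinearAut.smul_single]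
  rfl

/-- fixed places give a fixed class -/
theorem mzc_hf_cls_fixed (v w : Place Qbar (modularFunctionFieldBar p))
    (hv : ∀ σ : GQ, arithmeticGalois (modularFunctionFieldFull p) σ • v = v)
    (hw : ∀ σ : GQ, arithmeticGalois (modularFunctionFieldFull p) σ • w = w) (σ : GQ) :
    σ • mzt_cls p v w = mzt_cls p v w := by
  rw [mzc_hf_cls_smul, hv, hw]

/-- **clause (ii) of `mzt_C_stmt`** from clauses (i) and (iii) -/
theorem mzc_hf_clause (hp : p.Prime) (C : mzt_Cusps p)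
    (hzero : ∀ σ : GQ, arithmeticGalois (modularFunctionFieldFull p) σ • C.zero = C.zero)
    (hinf : ∀ σ : GQ, arithmeticGalois (modularFunctionFieldFull p) σ • C.inf = C.inf)
    (hkill : (p - 1) • mzt_c p C = 0) :
    ∀ ℓ : Nat.Primes, (ℓ : ℕ) ≠ p → ¬ (ℓ : ℕ) ∣ p - 1 →
      heckeOperatorBar p ℓ (mzt_c p C) = ((1 : ℤ) + ((ℓ : ℕ) : ℤ)) • mzt_c p C := by
  intro ℓ hℓp hℓ1
  refine mzc_hf_main p ℓ ?_ (p - 1) hℓ1 _ (mzc_hf_cls_fixed p C.zero C.inf hzero hinf) hkill
  intro hd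
  exact hℓp ((Nat.prime_dvd_prime_iff_eq ℓ.2 hp).1 hd)

end Classes

end Fermat.Agent.MZ

end
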