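/-
MAZUR (S15) / [MZ-C'] clause (iv), cell [C-NZ].  Prefix `mzc_nz_`.

`mzc_nz_main` : on `ℚ̄(X₀(p))`, `p` prime `∉ {2,3,5,7,13}` (so the genus is positive), the class of
`(v) - (w)` for two DISTINCT places is nonzero.

* `mzc_nz_genus_zero` (abstract, `K` algebraically closed of characteristic zero): a function with a
  single simple pole has degree one (`hw_sum_ord_poles`), it is unramified everywhere
  (`hw_sum_ord_sub_const`), and the Riemann–Hurwitz count `hw_genus_eq` gives genus `0`;
* `mzc_nz_genusFormula_pos` : `0 < genusFormula p` (numerics: `ν₂, ν₃ ≤ 2`; `p = 11` separately);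
* `mzc_nz_main` combines them with `Fermat.Agent.S24.result`.  The instance
  `HasCanonicalDivisor ℚ̄ ℚ̄(X₀(p))` is an instance ARGUMENT (cell `MZ/C/Canon.lean`).
-/
import Mathlib
import Fermat.Agent.MZ.Top.Seams
import Fermat.Agent.S24

set_option autoImplicit false
set_option maxHeartbeats 800000

noncomputable section

open AlgebraicCurve IntermediateField ModularCurve
open scoped IntermediateField.algebraAdjoinAdjoin

namespace Fermat.Agent.MZ

open Fermat.Agent.S24

local notation "Qbar" => AlgebraicClosure ℚ

section Abstract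

universe u v
variable {K : Type u} {F : Type v} [Field K] [Field F] [Algebra K F]
variable [IsAlgClosed K] [CharZero K]

/-- a function with a single, simple pole is a generator: the genus is zero -/
theorem mzc_nz_genus_zero (x : F) [FiniteDimensional K⟮x⟯ F]
    [HasCanonicalDivisor (K := K) (F := F)] (f : F) (w : Place K F)
    (hw : w.ord f = -1) (hpoles : ∀ v : Place K F, v.ord f < 0 → v = w) :
    genus K F = 0 := by
  classical
  have hft : Transcendental K f := by
    rcases hw_const_or_transcendental (K := K) f with ⟨c, rfl⟩ | h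
    · rw [hw_ord_algebraMap] at hw
      omega
    · exact h
  haveI hfd : FiniteDimensional K⟮f⟯ F := hw_finiteDimensional_adjoin x hft
  -- the degree is one
  have hdeg : (Module.finrank K⟮f⟯ F : ℤ) = 1 := by
    obtain ⟨sI, hsI, hsumI⟩ := hw_sum_ord_poles hft
    have hs : sI = {w} := by
      ext v
      rw [hsI, Finset.mem_singleton]
      constructor
      · exact hpoles v
      · rintro rfl
        rw [hw]
        norm_num
    rw [hs, Finset.sum_singleton, hw] at hsumI
    omega
  -- no ramification
  have hram : ∀ (c : K) (v : Place K F), 1 < v.ord (f - algebraMap K F c) →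
      c ∈ (∅ : Finset K) := by
    intro c v hv
    exfalso
    obtain ⟨s, hs, hsum⟩ := hw_sum_ord_sub_const hft c
    have hvs : v ∈ s := (hs v).2 (by omega)
    have hle : v.ord (f - algebraMap K F c) ≤ ∑ u ∈ s, u.ord (f - algebraMap K F c) :=
      Finset.single_le_sum (f := fun u : Place K F => u.ord (f - algebraMap K F c))
        (fun u hu => le_of_lt ((hs u).1 hu)) hvs
    rw [hsum, hdeg] at hle
    omega
  rw [hw_genus_eq hft ∅ hram, Finset.sum_empty, hdeg]
  omega

end Abstract

section Numerics

/-- a quadratic polynomial over a field has at most two roots (counted as `Nat.card`) -/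
theorem mzc_nz_card_roots_le {k : Type*} [Field k] (P : Polynomial k) (hP : P ≠ 0)
    (hdeg : P.natDegree ≤ 2) (S : Set k) (hS : ∀ x ∈ S, P.IsRoot x) : Nat.card S ≤ 2 := by
  classical
  have hsub : S ⊆ (P.roots.toFinset : Set k) := by
    intro x hx
    rw [Finset.mem_coe, Multiset.mem_toFinset, Polynomial.mem_roots hP]
    exact hS x hx
  have hfin : S.Finite := (P.roots.toFinset.finite_toSet).subset hsub
  rw [Nat.card_coe_set_eq, Set.ncard_eq_toFinset_card S hfin]
  calc hfin.toFinset.card ≤ P.roots.toFinset.card := by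
        apply Finset.card_le_card
        intro x hx
        rw [Set.Finite.mem_toFinset] at hx
        exact_mod_cast hsub hx
    _ ≤ Multiset.card P.roots := Multiset.toFinset_card_le _
    _ ≤ P.natDegree := Polynomial.card_roots' P
    _ ≤ 2 := hdeg

theorem mzc_nz_nuTwo_le (p : ℕ) (hp : p.Prime) : nuTwo p ≤ 2 := by
  haveI : Fact p.Prime := ⟨hp⟩
  unfold nuTwo
  have hP : (Polynomial.X ^ 2 + 1 : Polynomial (ZMod p)) ≠ 0 := by
    intro h
    have := congrArg (fun q => Polynomial.coeff q 2) h
    simp [Polynomial.coeff_X_pow, Polynomial.coeff_one] at this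
  refine mzc_nz_card_roots_le (Polynomial.X ^ 2 + 1 : Polynomial (ZMod p)) hP ?_
    {x : ZMod p | x ^ 2 + 1 = 0} ?_
  · refine (Polynomial.natDegree_add_le _ _).trans ?_
    simp
  · intro x hx
    simpa [Polynomial.IsRoot] using hx

theorem mzc_nz_nuThree_le (p : ℕ) (hp : p.Prime) : nuThree p ≤ 2 := by
  haveI : Fact p.Prime := ⟨hp⟩
  unfold nuThree
  have hP : (Polynomial.X ^ 2 + Polynomial.X + 1 : Polynomial (ZMod p)) ≠ 0 := by
    intro h
    have := congrArg (fun q => Polynomial.coeff q 2) h
    simp [Polynomial.coeff_X_pow, Polynomial.coeff_one, Polynomial.coeff_X] at this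
  refine mzc_nz_card_roots_le (Polynomial.X ^ 2 + Polynomial.X + 1 : Polynomial (ZMod p)) hP ?_
    {x : ZMod p | x ^ 2 + x + 1 = 0} ?_
  · refine (Polynomial.natDegree_add_le _ _).trans ?_
    refine max_le ((Polynomial.natDegree_add_le _ _).trans ?_) ?_
    · simp
    · simp
  · intro x hx
    simpa [Polynomial.IsRoot] using hx

theorem mzc_nz_cuspCount_prime (p : ℕ) (hp : p.Prime) : cuspCount p = 2 := by
  unfold cuspCount
  rw [hp.divisors, Finset.sum_pair hp.one_lt.ne]
  simp [Nat.div_self hp.pos]

theorem mzc_nz_nuTwo_eleven : nuTwo 11 = 0 := by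
  unfold nuTwo
  haveI : IsEmpty {x : ZMod 11 // x ^ 2 + 1 = 0} := ⟨fun ⟨x, hx⟩ => by
    revert x
    decide⟩
  exact Nat.card_of_isEmpty

/-- the genus of `X₀(p)` is positive for `p` prime outside `{2, 3, 5, 7, 13}` -/
theorem mzc_nz_genusFormula_pos (p : ℕ) (hp : p.Prime)
    (hp' : p ∉ ({2, 3, 5, 7, 13} : Finset ℕ)) : 0 < genusFormula p := by
  have h2 : (nuTwo p : ℚ) ≤ 2 := by exact_mod_cast mzc_nz_nuTwo_le p hp
  have h3 : (nuThree p : ℚ) ≤ 2 := by exact_mod_cast mzc_nz_nuThree_le p hp
  unfold genusFormula
  rw [Fermat.Agent.S24.Comb.dedekindPsi_prime hp, mzc_nz_cuspCount_prime p hp]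
  push_cast
  by_cases h17 : 17 ≤ p
  · have : (17 : ℚ) ≤ p := by exact_mod_cast h17
    linarith
  · have h11 : p = 11 := by
      simp only [Finset.mem_insert, Finset.mem_singleton, not_or] at hp'
      obtain ⟨a2, a3, a5, a7, a13⟩ := hp'
      have hlt : p < 17 := by omega
      interval_cases p <;> first | rfl | omega | (exfalso; revert hp; decide)
    subst h11
    rw [mzc_nz_nuTwo_eleven]
    push_cast
    linarith

end Numerics

section Main

/-- **[C-NZ]** in positive genus the difference of two distinct places is not principal -/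
theorem mzc_nz_main (p : ℕ) [NeZero p] (hp : p.Prime)
    (hp' : p ∉ ({2, 3, 5, 7, 13} : Finset ℕ))
    [HasCanonicalDivisor (K := Qbar) (F := ↥(modularFunctionFieldBar p))]
    (v w : Place Qbar (modularFunctionFieldBar p)) (hvw : v ≠ w) : mzt_cls p v w ≠ 0 := by
  classical
  intro h0
  unfold mzt_cls Pic0.mk at h0
  have hmem := (QuotientAddGroup.eq_zero_iff _).1 h0
  rw [AddSubgroup.mem_addSubgroupOf] at hmem
  obtain ⟨f, -, hD⟩ := hmem
  have hDv : ∀ P : Place Qbar (modularFunctionFieldBar p),
      ((if v = P then (1 : ℤ) else 0) - (if w = P then (1 : ℤ) else 0)) = P.ord f := by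
    intro P
    have := hD P
    have e : ((mzt_diff p v w : Divisor Qbar ↥(modularFunctionFieldBar p))) P
        = (Finsupp.single v (1 : ℤ) - Finsupp.single w (1 : ℤ) :
            Place Qbar ↥(modularFunctionFieldBar p) →₀ ℤ) P := rfl
    rw [e, Finsupp.sub_apply, Finsupp.single_apply, Finsupp.single_apply] at this
    exact this
  have hw : w.ord f = -1 := by
    rw [← hDv w, if_neg hvw, if_pos rfl]
    norm_num
  have hpoles : ∀ P : Place Qbar (modularFunctionFieldBar p), P.ord f < 0 → P = w := by
    intro P hP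
    rw [← hDv P] at hP
    by_contra hne
    rw [if_neg (fun h : w = P => hne h.symm)] at hP
    split_ifs at hP <;> omega
  haveI := asm_finite p
  have hg : genus Qbar ↥(modularFunctionFieldBar p) = 0 :=
    mzc_nz_genus_zero (ff_jF p) f w hw hpoles
  have hS := Fermat.Agent.S24.result p
  rw [hg] at hS
  have hpos := mzc_nz_genusFormula_pos p hp hp'
  rw [← hS] at hpos
  simp at hpos

end Main

end Fermat.Agent.MZ

end
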