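/-
MAZUR (S15) / [MZ-C'] clause (iv), cell [C-NZ]: the CLOSED form.  Prefix `mzc_nz_`.

`mzc_nz_closed` = `mzc_nz_main` (file `NonZero.lean`) with the instance
`HasCanonicalDivisor ℚ̄ ℚ̄(X₀(p))` supplied by `mzc_cn_inst` (file `Canon.lean`, helper4).
`mzc_nz_clause` : clause (iv) of `mzt_C_stmt` from `zero ≠ inf`.
-/
import Mathlib
import Fermat.Agent.MZ.C.NonZero
import Fermat.Agent.MZ.C.Canon

set_option autoImplicit false

noncomputable section

open AlgebraicCurve ModularCurve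

namespace Fermat.Agent.MZ

local notation "Qbar" => AlgebraicClosure ℚ

/-- **[C-NZ], closed**: for `p` prime outside `{2, 3, 5, 7, 13}` the class of `(v) - (w)`, `v ≠ w`,
is nonzero in `J₀(p)`. -/
theorem mzc_nz_closed (p : ℕ) [NeZero p] (hp : p.Prime)
    (hp' : p ∉ ({2, 3, 5, 7, 13} : Finset ℕ))
    (v w : Place Qbar (modularFunctionFieldBar p)) (hvw : v ≠ w) : mzt_cls p v w ≠ 0 :=
  mzc_nz_main p hp hp' v w hvw

/-- clause (iv) of `mzt_C_stmt` -/
theorem mzc_nz_clause (p : ℕ) [NeZero p] (hp : p.Prime)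
    (hp' : p ∉ ({2, 3, 5, 7, 13} : Finset ℕ)) (C : mzt_Cusps p) (hne : C.zero ≠ C.inf) :
    mzt_c p C ≠ 0 :=
  mzc_nz_closed p hp hp' C.zero C.inf hne

end Fermat.Agent.MZ

end
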