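/-
MAZUR / node [MZ-C'] (the cuspidal class), ABSTRACT FORM (helper24).  Prefix `mzc_sp_`.

`mzc_sp_Spec p C jB UB` : the facts about the two cusps `C.zero`, `C.inf` of `X₀(p)`, the function
`jB` (`= j`) and the modular unit `UB` (`= Δ(q)/Δ(q^p)`) that the consumers use:
the poles of `j` are the two cusps, with orders `-1` at `∞` and `-p` at `0`; `U` has order `1 - p`
at `∞` and is a unit at every place where `j` is finite; `∞` and `j` are `G_ℚ`-fixed.

Consequences (no cusp definitions needed):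
* `mzc_sp_ne`          : `0 ≠ ∞`;
* `mzc_sp_ord_zero_U`  : `ord_0 U = p - 1` (degree zero);
* `mzc_sp_div_U`       : `div U = (p - 1) ((0) - (∞))`;
* `mzc_sp_kill`        : `(p - 1) • c = 0`                      (clause (iii) of `mzt_C_stmt`);
* `mzc_sp_gal_zero`    : the cusp `0` is `G_ℚ`-fixed            (clause (i));
* `mzc_sp_pole_U`, `mzc_sp_zero_U` : the only pole of `U` is `∞`, the only zero of `U` is `0`;
* `mzc_sp_C_stmt`      : `mzt_C_stmt C` from the specification, clause (ii) (`T_ℓ c = (1 + ℓ) c`,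
  an input) and the non-vanishing (an input).
-/
import Mathlib
import Fermat.Agent.MZ.Top.Seams
import Fermat.Agent.JT3.Hecke.InputsBar

set_option autoImplicit false
set_option synthInstance.maxHeartbeats 400000
set_option maxHeartbeats 1000000
set_option linter.unusedSectionVars false
set_option linter.style.haveILetI false

noncomputable section

open ModularCurve AlgebraicCurve
open Fermat.Agent.S24 Fermat.Agent.JT3

namespace Fermat.Agent.MZ

local notation "GQ" => (AlgebraicClosure ℚ ≃ₐ[ℚ] AlgebraicClosure ℚ)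
local notation "Qb" => AlgebraicClosure ℚ

/-- **the specification of the two cusps of `X₀(p)`** relative to `jB = j` and the modular unit
`UB`. -/
structure mzc_sp_Spec (p : ℕ) [NeZero p] (C : mzt_Cusps p)
    (jB UB : ↥(modularFunctionFieldBar p)) : Prop where
  poles_j : ∀ P : Place Qb (modularFunctionFieldBar p), P.ord jB < 0 → P = C.inf ∨ P = C.zero
  ord_inf_j : C.inf.ord jB = -1
  ord_zero_j : C.zero.ord jB = -(p : ℤ)
  ord_inf_U : C.inf.ord UB = 1 - (p : ℤ)
  ord_U_fin : ∀ P : Place Qb (modularFunctionFieldBar p), 0 ≤ P.ord jB → P.ord UB = 0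
  gal_inf : ∀ σ : GQ, arithmeticGalois (modularFunctionFieldFull p) σ • C.inf = C.inf
  gal_j : ∀ σ : GQ, arithmeticGalois (modularFunctionFieldFull p) σ • jB = jB

namespace mzc_sp_Spec

variable {p : ℕ} [NeZero p] {C : mzt_Cusps p} {jB UB : ↥(modularFunctionFieldBar p)}

/-- the two cusps are distinct (`p ≠ 1`). -/
theorem mzc_sp_ne (h : mzc_sp_Spec p C jB UB) (hp : p ≠ 1) : C.zero ≠ C.inf := by
  intro e
  have h1 := h.ord_zero_j
  rw [e, h.ord_inf_j] at h1
  have : (p : ℤ) = 1 := by linarith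
  exact hp (by exact_mod_cast this)

/-- `U ≠ 0`. -/
theorem mzc_sp_U_ne_zero (h : mzc_sp_Spec p C jB UB) (hp : p ≠ 1) : UB ≠ 0 := by
  intro e
  have h1 := h.ord_inf_U
  rw [e, Place.ord_zero] at h1
  have : (p : ℤ) = 1 := by linarith
  exact hp (by exact_mod_cast this)

/-- the zeros and poles of `U` are among the two cusps. -/
theorem mzc_sp_supp_U (h : mzc_sp_Spec p C jB UB)
    (P : Place Qb (modularFunctionFieldBar p)) (hP : P.ord UB ≠ 0) : P = C.inf ∨ P = C.zero := by
  by_contra hne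
  have : 0 ≤ P.ord jB := by
    by_contra hlt
    exact hne (h.poles_j P (not_le.mp hlt))
  exact hP (h.ord_U_fin P this)

/-- `ord_0 U = p - 1`, since `div U` has degree zero. -/
theorem mzc_sp_ord_zero_U (h : mzc_sp_Spec p C jB UB) (hp : p ≠ 1) :
    C.zero.ord UB = (p : ℤ) - 1 := by
  have hne := h.mzc_sp_ne hp
  have hx := hib_isSepGen p
  have hdeg := rt_degree_div hx UB
  -- `div U = ord_∞ U (∞) + ord_0 U (0)`
  have hD : rt_div hx UB = Finsupp.single C.inf (C.inf.ord UB)
      + Finsupp.single C.zero (C.zero.ord UB) := by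
    ext P
    rw [rt_div_apply, Finsupp.add_apply]
    by_cases h1 : P = C.inf
    · subst h1
      rw [Finsupp.single_eq_same, Finsupp.single_eq_of_ne (Ne.symm hne), add_zero]
    · by_cases h2 : P = C.zero
      · subst h2
        rw [Finsupp.single_eq_same, Finsupp.single_eq_of_ne h1, zero_add]
      · rw [Finsupp.single_eq_of_ne h1, Finsupp.single_eq_of_ne h2, add_zero]
        by_contra h3
        rcases h.mzc_sp_supp_U P h3 with e | e
        · exact h1 e
        · exact h2 e
  rw [hD, map_add, Divisor.degree_single, Divisor.degree_single,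
    (est_riemann_fbar p).deg_one C.inf, (est_riemann_fbar p).deg_one C.zero, h.ord_inf_U] at hdeg
  push_cast at hdeg
  linarith

/-- the only pole of `U` is `∞`. -/
theorem mzc_sp_pole_U (h : mzc_sp_Spec p C jB UB) (hp : p ≠ 1)
    (P : Place Qb (modularFunctionFieldBar p)) (hP : P.ord UB < 0) : P = C.inf := by
  rcases h.mzc_sp_supp_U P (ne_of_lt hP) with e | e
  · exact e
  · exfalso
    rw [e, h.mzc_sp_ord_zero_U hp] at hP
    have : (1 : ℤ) ≤ p := by exact_mod_cast Nat.one_le_iff_ne_zero.mpr (NeZero.ne p)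
    linarith

/-- the only zero of `U` is the cusp `0`. -/
theorem mzc_sp_zero_U (h : mzc_sp_Spec p C jB UB)
    (P : Place Qb (modularFunctionFieldBar p)) (hP : 0 < P.ord UB) : P = C.zero := by
  rcases h.mzc_sp_supp_U P (ne_of_gt hP) with e | e
  · exfalso
    rw [e, h.ord_inf_U] at hP
    have : (1 : ℤ) ≤ p := by exact_mod_cast Nat.one_le_iff_ne_zero.mpr (NeZero.ne p)
    linarith
  · exact e

/-- `div U = (p - 1) ((0) - (∞))`. -/
theorem mzc_sp_div_U (h : mzc_sp_Spec p C jB UB) (hp : p ≠ 1)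
    (P : Place Qb (modularFunctionFieldBar p)) :
    ((p - 1 : ℕ) • (mzt_diff p C.zero C.inf : Divisor Qb (modularFunctionFieldBar p))) P
      = P.ord UB := by
  have hne := h.mzc_sp_ne hp
  have hp1 : 1 ≤ p := Nat.one_le_iff_ne_zero.mpr (NeZero.ne p)
  have hc : ((p - 1 : ℕ) : ℤ) = (p : ℤ) - 1 := by
    rw [Nat.cast_sub hp1]
    simp
  show ((p - 1 : ℕ) • ((Finsupp.single C.zero (1 : ℤ) - Finsupp.single C.inf 1 :
    Divisor Qb (modularFunctionFieldBar p)))) P = _
  rw [Finsupp.smul_apply, Finsupp.sub_apply, nsmul_eq_mul, hc]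
  by_cases h1 : P = C.inf
  · subst h1
    rw [Finsupp.single_eq_same, Finsupp.single_eq_of_ne (Ne.symm hne), h.ord_inf_U]
    ring
  · by_cases h2 : P = C.zero
    · subst h2
      rw [Finsupp.single_eq_same, Finsupp.single_eq_of_ne h1, h.mzc_sp_ord_zero_U hp]
      ring
    · rw [Finsupp.single_eq_of_ne h1, Finsupp.single_eq_of_ne h2]
      have : P.ord UB = 0 := by
        by_contra h3
        rcases h.mzc_sp_supp_U P h3 with e | e
        · exact h1 e
        · exact h2 e
      rw [this]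
      ring

/-- **clause (iii)**: `(p - 1) • c = 0`. -/
theorem mzc_sp_kill (h : mzc_sp_Spec p C jB UB) (hp : p ≠ 1) : (p - 1) • mzt_c p C = 0 := by
  show (p - 1) • Pic0.mk (mzt_diff p C.zero C.inf) = 0
  have e : (p - 1) • Pic0.mk (mzt_diff p C.zero C.inf)
      = Pic0.mk ((p - 1) • mzt_diff p C.zero C.inf) := rfl
  rw [e]
  refine (QuotientAddGroup.eq_zero_iff _).mpr ?_
  show (((p - 1) • mzt_diff p C.zero C.inf : Divisor.degZero (K := Qb)
      (F := modularFunctionFieldBar p)) : Divisor Qb (modularFunctionFieldBar p))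
      ∈ Divisor.principal (K := Qb) (F := modularFunctionFieldBar p)
  rw [Divisor.mem_principal]
  refine ⟨UB, h.mzc_sp_U_ne_zero hp, fun P => ?_⟩
  rw [AddSubgroup.coe_nsmul]
  exact h.mzc_sp_div_U hp P

/-- **clause (i)**, second half: the cusp `0` is `G_ℚ`-fixed (it is the other pole of `j`). -/
theorem mzc_sp_gal_zero (h : mzc_sp_Spec p C jB UB) (hp : p ≠ 1) (σ : GQ) :
    arithmeticGalois (modularFunctionFieldFull p) σ • C.zero = C.zero := by
  set g := arithmeticGalois (modularFunctionFieldFull p) σ with hg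
  have hord : (g • C.zero).ord jB = C.zero.ord jB := by
    have := SemilinearAut.ord_smul g C.zero jB
    rwa [h.gal_j σ] at this
  have hlt : (g • C.zero).ord jB < 0 := by
    rw [hord, h.ord_zero_j]
    have : (1 : ℤ) ≤ p := by exact_mod_cast Nat.one_le_iff_ne_zero.mpr (NeZero.ne p)
    linarith
  rcases h.poles_j _ hlt with e | e
  · exfalso
    -- `g • 0 = ∞ = g • ∞` forces `0 = ∞`
    have e2 : g • C.zero = g • C.inf := by rw [e, h.gal_inf σ]
    exact h.mzc_sp_ne hp (MulAction.injective g e2)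
  · exact e

end mzc_sp_Spec

/-- **[MZ-C'] from the specification**: `mzt_C_stmt C`, given the specification of the cusps for
every `p`, clause (ii) as a function of clauses (i), (iii) (`mzc_h_C_ii`), and the non-vanishing of
the class of a difference of two distinct places (`[C-NZ]`). -/
theorem mzc_sp_C_stmt (C : ∀ p : ℕ, mzt_Cusps p)
    (jB UB : ∀ p : ℕ, ↥(modularFunctionFieldBar p))
    (hS : ∀ (p : ℕ) [NeZero p], p.Prime → p ∉ ({2, 3, 5, 7, 13} : Finset ℕ) →
      mzc_sp_Spec p (C p) (jB p) (UB p))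
    (hEis : ∀ (p : ℕ) [NeZero p], p.Prime → ∀ C' : mzt_Cusps p,
      (∀ σ : GQ, arithmeticGalois (modularFunctionFieldFull p) σ • C'.zero = C'.zero) →
      (∀ σ : GQ, arithmeticGalois (modularFunctionFieldFull p) σ • C'.inf = C'.inf) →
      (p - 1) • mzt_c p C' = 0 →
      ∀ ℓ : Nat.Primes, (ℓ : ℕ) ≠ p → ¬ (ℓ : ℕ) ∣ p - 1 →
        heckeOperatorBar p ℓ (mzt_c p C') = ((1 : ℤ) + ((ℓ : ℕ) : ℤ)) • mzt_c p C')
    (hNZ : ∀ (p : ℕ) [NeZero p], p.Prime → p ∉ ({2, 3, 5, 7, 13} : Finset ℕ) →
      ∀ v w : Place Qb (modularFunctionFieldBar p), v ≠ w → mzt_cls p v w ≠ 0) :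
    mzt_C_stmt C := by
  intro p _ hp hp'
  have h := hS p hp hp'
  have hp1 : p ≠ 1 := hp.ne_one
  have hz := h.mzc_sp_gal_zero hp1
  have hk := h.mzc_sp_kill hp1
  exact ⟨hz, h.gal_inf, hEis p hp (C p) hz h.gal_inf hk, hk,
    hNZ p hp hp' _ _ (h.mzc_sp_ne hp1)⟩

end Fermat.Agent.MZ

end
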